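import Mathlib

set_option autoImplicit false

namespace Fermat.Agent.S51

theorem isGalois_algebraicClosure_rat : IsGalois ℚ (AlgebraicClosure ℚ) := by
  have h1 : Algebra.IsAlgebraic ℚ (AlgebraicClosure ℚ) := AlgebraicClosure.isAlgebraic ℚ
  have h2 : IsAlgClosure ℚ (AlgebraicClosure ℚ) := ⟨inferInstance, h1⟩
  exact IsAlgClosure.isGalois ℚ (AlgebraicClosure ℚ)

theorem mem_range_of_fixed (z : AlgebraicClosure ℚ)
    (h : ∀ σ : AlgebraicClosure ℚ ≃ₐ[ℚ] AlgebraicClosure ℚ, σ z = z) :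
    ∃ q : ℚ, algebraMap ℚ (AlgebraicClosure ℚ) q = z := by
  have := isGalois_algebraicClosure_rat
  exact (IntermediateField.mem_bot).mp ((InfiniteGalois.mem_bot_iff_fixed z).mpr h)

end Fermat.Agent.S51
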