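import Mathlib

set_option autoImplicit false

namespace Fermat.Agent.S51

/-- Rational points on the model `t²(f-1) + 5tf³ + f⁵(f+9) = 0` of `X₀(15)`, given that the
elliptic curve `y² = x(x+80)(x+81)` has no rational points with `y ≠ 0`. -/
theorem t_values (hR : ∀ x y : ℚ, y ^ 2 = x * (x + 80) * (x + 81) → y = 0)
    (f t : ℚ) (hf : f ≠ 0) (ht : t ≠ 0)
    (h : t ^ 2 * (f - 1) + 5 * t * f ^ 3 + f ^ 5 * (f + 9) = 0) :
    t = -2 ∨ t = -729 / 2 ∨ t = -729 / 32 ∨ t = -32 := by
  by_cases hf4 : f = -4
  · subst hf4
    right; right; right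
    have h2 : (t + 32) ^ 2 = 0 := by linear_combination (-1 / 5 : ℚ) * h
    have h3 : t + 32 = 0 := by simpa using h2
    linarith
  · have hX : -4 * (f + 4) ≠ 0 := by
      intro h0
      apply hf4
      linarith
    set X : ℚ := -4 * (f + 4) with hXdef
    set y : ℚ := (2 * (f - 1) * t + 5 * f ^ 3) / f ^ 2 with hydef
    have hy2 : y ^ 2 = -f * (4 * f - 9) * (f + 4) := by
      rw [hydef]
      field_simp
      linear_combination (4 * (f - 1)) * h
    have hXy : (4 * y) ^ 2 = X * (X + 16) * (X + 25) := by
      rw [hXdef]
      linear_combination (16 : ℚ) * hy2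
    have key := hR ((X - 20) ^ 2 / X) (4 * y * (X - 20) * (X + 20) / X ^ 2) (by
      field_simp
      linear_combination ((X - 20) ^ 2 * (X + 20) ^ 2) * hXy)
    have key2 : 4 * y * (X - 20) * (X + 20) = 0 := by
      have hX2 : X ^ 2 ≠ 0 := pow_ne_zero 2 hX
      exact (div_eq_zero_iff.mp key).resolve_right hX2
    rcases mul_eq_zero.mp key2 with h1 | h1
    · rcases mul_eq_zero.mp h1 with h1 | h1
      · -- y = 0
        have hy0 : y = 0 := by
          rcases mul_eq_zero.mp h1 with h4 | h4
          · norm_num at h4
          · exact h4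
        rw [hy0] at hy2
        have h5 : f * (4 * f - 9) * (f + 4) = 0 := by linear_combination hy2
        have hf44 : f + 4 ≠ 0 := fun h0 => hf4 (by linarith)
        have h6 : 4 * f - 9 = 0 := by
          rcases mul_eq_zero.mp h5 with h7 | h7
          · rcases mul_eq_zero.mp h7 with h8 | h8
            · exact absurd h8 hf
            · exact h8
          · exact absurd h7 hf44
        have hf9 : f = 9 / 4 := by linarith
        subst hf9
        right; right; left
        have h2 : (t + 729 / 32) ^ 2 = 0 := by linear_combination (4 / 5 : ℚ) * h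
        have h3 : t + 729 / 32 = 0 := by simpa using h2
        linarith
      · -- X = 20, f = -9
        have hf9 : f = -9 := by rw [hXdef] at h1; linarith
        subst hf9
        right; left
        have h2 : t * (2 * t + 729) = 0 := by linear_combination (-1 / 5 : ℚ) * h
        rcases mul_eq_zero.mp h2 with h3 | h3
        · exact absurd h3 ht
        · linarith
    · -- X = -20, f = 1
      have hf1 : f = 1 := by rw [hXdef] at h1; linarith
      subst hf1
      left
      have h2 : 5 * t + 10 = 0 := by linear_combination h
      linarith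

end Fermat.Agent.S51
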