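import Mathlib

set_option autoImplicit false
set_option linter.unusedSectionVars false

namespace Fermat.Agent.S51

open WeierstrassCurve WeierstrassCurve.Affine

variable {F : Type*} [Field F] [CharZero F] [DecidableEq F]

/-- Short Weierstrass coefficient `A = -c₄/48`. -/
noncomputable def cA (W : Affine F) : F := -W.c₄ / 48

/-- Short Weierstrass coefficient `B = -c₆/864`. -/
noncomputable def cB (W : Affine F) : F := -W.c₆ / 864

/-- Short-form x-coordinate `x + b₂/12` of a point (junk value `0` at infinity). -/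
noncomputable def px {W : Affine F} : W.Point → F
  | .zero => 0
  | .some x _ _ => x + W.b₂ / 12

/-- Short-form doubled y-coordinate `2y + a₁x + a₃` of a point (junk value `0` at infinity). -/
noncomputable def pe {W : Affine F} : W.Point → F
  | .zero => 0
  | .some x y _ => 2 * y + W.a₁ * x + W.a₃

variable {W : Affine F}

lemma px_some {x y : F} (h : W.Nonsingular x y) : px (Point.some x y h) = x + W.b₂ / 12 := rfl

lemma pe_some {x y : F} (h : W.Nonsingular x y) :
    pe (Point.some x y h) = 2 * y + W.a₁ * x + W.a₃ := rfl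

lemma pe_sq {P : W.Point} (hP : P ≠ 0) :
    pe P ^ 2 = 4 * (px P ^ 3 + cA W * px P + cB W) := by
  rcases P with _ | ⟨x, y, h⟩
  · exact absurd rfl hP
  · have heq := (W.equation_iff x y).mp h.1
    simp only [px, pe, cA, cB, WeierstrassCurve.c₄, WeierstrassCurve.c₆, WeierstrassCurve.b₂,
      WeierstrassCurve.b₄, WeierstrassCurve.b₆]
    linear_combination (4 : F) * heq

lemma px_neg (P : W.Point) : px (-P) = px P := by
  rcases P with _ | ⟨x, y, h⟩
  · rfl
  · rfl

lemma pe_neg (P : W.Point) : pe (-P) = -pe P := by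
  rcases P with _ | ⟨x, y, h⟩
  · simp [pe, Point.neg_def, Point.neg]
  · simp only [Point.neg_some, pe, negY]
    ring

lemma add_self_eq_zero_iff {P : W.Point} (hP : P ≠ 0) : P + P = 0 ↔ pe P = 0 := by
  rcases P with _ | ⟨x, y, h⟩
  · exact absurd rfl hP
  · by_cases hy : y = W.negY x y
    · rw [Point.add_self_of_Y_eq hy]
      simp only [pe, true_iff]
      rw [negY] at hy
      linear_combination hy
    · rw [Point.add_self_of_Y_ne hy]
      simp only [pe]
      constructor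
      · intro h0
        exact absurd h0 (Point.some_ne_zero _)
      · intro h0
        exfalso
        apply hy
        rw [negY]
        linear_combination h0

private lemma slope_aux (η N₁ N₂ a : F) (hη : η ≠ 0) (h : N₁ + a / 2 * η = N₂) :
    N₁ / η = N₂ / η - a / 2 := by
  field_simp
  linear_combination 2 * h

lemma dbl_formula {P : W.Point} (hP : P ≠ 0) (he : pe P ≠ 0) :
    P + P ≠ 0 ∧ px (P + P) = ((3 * px P ^ 2 + cA W) / pe P) ^ 2 - 2 * px P ∧
    pe (P + P) = -2 * ((3 * px P ^ 2 + cA W) / pe P) * (px (P + P) - px P) - pe P := by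
  rcases P with _ | ⟨x, y, h⟩
  · exact absurd rfl hP
  · have hy : y ≠ W.negY x y := by
      intro hy
      apply he
      simp only [pe]
      rw [negY] at hy
      linear_combination hy
    have he' : 2 * y + W.a₁ * x + W.a₃ ≠ 0 := he
    have hsl : W.slope x x y y =
        (3 * (x + W.b₂ / 12) ^ 2 + cA W) / (2 * y + W.a₁ * x + W.a₃) - W.a₁ / 2 := by
      rw [slope_of_Y_ne rfl hy]
      have e1 : y - W.negY x y = 2 * y + W.a₁ * x + W.a₃ := by rw [negY]; ring
      rw [e1]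
      apply slope_aux _ _ _ _ he'
      simp only [cA, WeierstrassCurve.c₄, WeierstrassCurve.b₂, WeierstrassCurve.b₄]
      ring
    rw [Point.add_self_of_Y_ne hy]
    refine ⟨Point.some_ne_zero _, ?_, ?_⟩
    · simp only [px, pe, addX, hsl]
      generalize (3 * (x + W.b₂ / 12) ^ 2 + cA W) / (2 * y + W.a₁ * x + W.a₃) = L
      simp only [WeierstrassCurve.b₂]
      ring
    · simp only [px, pe, addX, addY, negAddY, negY, hsl]
      generalize (3 * (x + W.b₂ / 12) ^ 2 + cA W) / (2 * y + W.a₁ * x + W.a₃) = L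
      simp only [WeierstrassCurve.b₂]
      ring

lemma add_formula {P Q : W.Point} (hP : P ≠ 0) (hQ : Q ≠ 0) (hx : px P ≠ px Q) :
    P + Q ≠ 0 ∧ px (P + Q) = ((pe Q - pe P) / (2 * (px Q - px P))) ^ 2 - px P - px Q ∧
    pe (P + Q) = -2 * ((pe Q - pe P) / (2 * (px Q - px P))) * (px (P + Q) - px P) - pe P := by
  rcases P with _ | ⟨x₁, y₁, h₁⟩
  · exact absurd rfl hP
  rcases Q with _ | ⟨x₂, y₂, h₂⟩
  · exact absurd rfl hQ
  have hx' : x₁ ≠ x₂ := by
    intro h; apply hx; simp only [px, h]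
  have hxd : x₂ - x₁ ≠ 0 := sub_ne_zero.mpr (Ne.symm hx')
  have hsl : W.slope x₁ x₂ y₁ y₂ =
      (2 * y₂ + W.a₁ * x₂ + W.a₃ - (2 * y₁ + W.a₁ * x₁ + W.a₃)) /
        (2 * (x₂ + W.b₂ / 12 - (x₁ + W.b₂ / 12))) - W.a₁ / 2 := by
    rw [slope_of_X_ne hx']
    have e1 : x₂ + W.b₂ / 12 - (x₁ + W.b₂ / 12) = x₂ - x₁ := by ring
    rw [e1]
    have e2 : (y₁ - y₂) / (x₁ - x₂) = (2 * (y₂ - y₁)) / (2 * (x₂ - x₁)) := by
      rw [mul_div_mul_left _ _ (two_ne_zero : (2 : F) ≠ 0), ← neg_sub y₁ y₂, ← neg_sub x₁ x₂,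
        neg_div_neg_eq]
    rw [e2]
    apply slope_aux _ _ _ _ (mul_ne_zero (two_ne_zero : (2 : F) ≠ 0) hxd)
    ring
  rw [Point.add_of_X_ne hx']
  refine ⟨Point.some_ne_zero _, ?_, ?_⟩
  · simp only [px, pe, addX, hsl]
    generalize (2 * y₂ + W.a₁ * x₂ + W.a₃ - (2 * y₁ + W.a₁ * x₁ + W.a₃)) /
        (2 * (x₂ + W.b₂ / 12 - (x₁ + W.b₂ / 12))) = L
    simp only [WeierstrassCurve.b₂]
    ring
  · simp only [px, pe, addX, addY, negAddY, negY, hsl]
    generalize (2 * y₂ + W.a₁ * x₂ + W.a₃ - (2 * y₁ + W.a₁ * x₁ + W.a₃)) /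
        (2 * (x₂ + W.b₂ / 12 - (x₁ + W.b₂ / 12))) = L
    simp only [WeierstrassCurve.b₂]
    ring

lemma eq_or_eq_neg_of_px_eq {P Q : W.Point} (hP : P ≠ 0) (hQ : Q ≠ 0) (h : px P = px Q) :
    P = Q ∨ P = -Q := by
  rcases P with _ | ⟨x₁, y₁, h₁⟩
  · exact absurd rfl hP
  rcases Q with _ | ⟨x₂, y₂, h₂⟩
  · exact absurd rfl hQ
  have hx : x₁ = x₂ := by
    simp only [px] at h
    linear_combination h
  exact Point.X_eq_iff.mp hx

lemma eq_of_px_eq_of_pe_eq {P Q : W.Point} (hP : P ≠ 0) (hQ : Q ≠ 0) (h : px P = px Q)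
    (h' : pe P = pe Q) : P = Q := by
  rcases P with _ | ⟨x₁, y₁, h₁⟩
  · exact absurd rfl hP
  rcases Q with _ | ⟨x₂, y₂, h₂⟩
  · exact absurd rfl hQ
  have hx : x₁ = x₂ := by
    simp only [px] at h
    linear_combination h
  subst hx
  have hy : y₁ = y₂ := by
    simp only [pe] at h'
    have h2 : (2 : F) ≠ 0 := two_ne_zero
    apply mul_left_cancel₀ h2
    linear_combination h'
  subst hy
  rfl

lemma exists_point (hΔ : W.Δ ≠ 0) (ξ η : F) (h : η ^ 2 = 4 * (ξ ^ 3 + cA W * ξ + cB W)) :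
    ∃ P : W.Point, P ≠ 0 ∧ px P = ξ ∧ pe P = η := by
  have heq : W.Equation (ξ - W.b₂ / 12) ((η - W.a₁ * (ξ - W.b₂ / 12) - W.a₃) / 2) := by
    rw [W.equation_iff]
    simp only [cA, cB, WeierstrassCurve.c₄, WeierstrassCurve.c₆, WeierstrassCurve.b₂,
      WeierstrassCurve.b₄, WeierstrassCurve.b₆] at h
    simp only [WeierstrassCurve.b₂]
    linear_combination (1 / 4 : F) * h
  have hns := (W.equation_iff_nonsingular_of_Δ_ne_zero hΔ).mp heq
  refine ⟨Point.some _ _ hns, Point.some_ne_zero _, ?_, ?_⟩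
  · simp only [px]; ring
  · simp only [pe]; ring

end Fermat.Agent.S51
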