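import Mathlib
import Fermat.Prelude.Def_FLTPrelim_GaloisRep
import Fermat.Agent.S51.Coords

set_option autoImplicit false

namespace Fermat.Agent.S51

open WeierstrassCurve WeierstrassCurve.Affine

local notation "Qbar" => AlgebraicClosure ℚ

lemma b₂_baseChange (E : Affine ℚ) : (E⁄Qbar).b₂ = algebraMap ℚ Qbar E.b₂ := by
  simp [WeierstrassCurve.baseChange, WeierstrassCurve.map_b₂]

lemma cA_baseChange (E : Affine ℚ) : cA (E⁄Qbar) = algebraMap ℚ Qbar (cA E) := by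
  simp [cA, WeierstrassCurve.baseChange, WeierstrassCurve.map_c₄]

lemma cB_baseChange (E : Affine ℚ) : cB (E⁄Qbar) = algebraMap ℚ Qbar (cB E) := by
  simp [cB, WeierstrassCurve.baseChange, WeierstrassCurve.map_c₆]

lemma Δ_baseChange (E : Affine ℚ) : (E⁄Qbar).Δ = algebraMap ℚ Qbar E.Δ := by
  simp [WeierstrassCurve.baseChange, WeierstrassCurve.map_Δ]

lemma Δ_baseChange_ne_zero {E : Affine ℚ} (hΔ : E.Δ ≠ 0) : (E⁄Qbar).Δ ≠ 0 := by
  rw [Δ_baseChange]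
  exact (map_ne_zero _).mpr hΔ

lemma smul_zero' (E : Affine ℚ) (σ : Qbar ≃ₐ[ℚ] Qbar) :
    σ • (0 : (E⁄Qbar).Point) = 0 := rfl

lemma smul_some (E : Affine ℚ) (σ : Qbar ≃ₐ[ℚ] Qbar) {x y : Qbar}
    (h : (E⁄Qbar).Nonsingular x y) :
    σ • (Point.some x y h : (E⁄Qbar).Point) =
      Point.some (σ x) (σ y) ((E.baseChange_nonsingular σ.toAlgHom.injective ..).mpr h) := rfl

lemma px_smul (E : Affine ℚ) (σ : Qbar ≃ₐ[ℚ] Qbar) (P : (E⁄Qbar).Point) :
    px (σ • P) = σ (px P) := by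
  rcases P with _ | ⟨x, y, h⟩
  · have h0 : σ • (Point.zero : (E⁄Qbar).Point) = Point.zero := rfl
    rw [h0]
    simp [px]
  · rw [smul_some]
    have h12 : σ (12 : Qbar) = 12 := map_ofNat σ 12
    simp only [px, b₂_baseChange, map_add, map_div₀, AlgEquiv.commutes, h12]

lemma pe_smul (E : Affine ℚ) (σ : Qbar ≃ₐ[ℚ] Qbar) (P : (E⁄Qbar).Point) :
    pe (σ • P) = σ (pe P) := by
  rcases P with _ | ⟨x, y, h⟩
  · have h0 : σ • (Point.zero : (E⁄Qbar).Point) = Point.zero := rfl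
    rw [h0]
    simp [pe]
  · rw [smul_some]
    have ha1 : (E⁄Qbar).a₁ = algebraMap ℚ Qbar E.a₁ := by
      simp [WeierstrassCurve.baseChange]
    have ha3 : (E⁄Qbar).a₃ = algebraMap ℚ Qbar E.a₃ := by
      simp [WeierstrassCurve.baseChange]
    have h2 : σ (2 : Qbar) = 2 := map_ofNat σ 2
    simp only [pe, ha1, ha3, map_add, map_mul, AlgEquiv.commutes, h2]

lemma smul_eq_zero_iff (E : Affine ℚ) (σ : Qbar ≃ₐ[ℚ] Qbar) (P : (E⁄Qbar).Point) :
    σ • P = 0 ↔ P = 0 := by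
  rcases P with _ | ⟨x, y, h⟩
  · exact ⟨fun _ => rfl, fun _ => rfl⟩
  · rw [smul_some]
    exact ⟨fun h0 => absurd h0 (Point.some_ne_zero _), fun h0 => absurd h0 (Point.some_ne_zero _)⟩

end Fermat.Agent.S51
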