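import Mathlib
import Fermat.Agent.S51.Coords

set_option autoImplicit false
set_option linter.unusedSectionVars false

namespace Fermat.Agent.S51

open WeierstrassCurve WeierstrassCurve.Affine

variable {F : Type*} [Field F] [CharZero F] [DecidableEq F]

/-- The third division polynomial of `y² = x³ + A x + B`. -/
def psi3 (A B x : F) : F := 3 * x ^ 4 + 6 * A * x ^ 2 + 12 * B * x - A ^ 2

lemma delta_eq (W : Affine F) : W.Δ = -16 * (4 * cA W ^ 3 + 27 * cB W ^ 2) := by
  have h := W.c_relation
  simp only [cA, cB]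
  linear_combination (1 / 1728 : F) * h

variable {W : Affine F}

lemma three_nsmul_eq_zero_iff (P : W.Point) : 3 • P = 0 ↔ P + P = -P := by
  have h3 : 3 • P = P + P + P := by
    rw [show (3 : ℕ) = 1 + 1 + 1 by norm_num, add_smul, add_smul, one_smul]
  rw [h3]
  constructor
  · intro h
    exact eq_neg_of_add_eq_zero_left h
  · intro h
    rw [h, neg_add_cancel]

/-- A nonzero `3`-torsion point is not `2`-torsion and its short `x`-coordinate is a root of
`psi3`. -/
theorem psi3_of_three_nsmul {P : W.Point} (hP : P ≠ 0) (h3 : 3 • P = 0) :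
    pe P ≠ 0 ∧ psi3 (cA W) (cB W) (px P) = 0 := by
  rw [three_nsmul_eq_zero_iff] at h3
  have hsq := pe_sq hP
  have hPP : P + P ≠ 0 := by
    rw [h3]
    exact neg_ne_zero.mpr hP
  have he : pe P ≠ 0 := fun he => hPP ((add_self_eq_zero_iff hP).mpr he)
  refine ⟨he, ?_⟩
  obtain ⟨-, hx, -⟩ := dbl_formula hP he
  rw [h3, px_neg] at hx
  have hx' : (3 * px P ^ 2 + cA W) ^ 2 = 3 * px P * pe P ^ 2 := by
    field_simp at hx
    linear_combination -hx
  simp only [psi3]
  linear_combination -hx' - 3 * px P * hsq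

/-- Conversely, for nonzero discriminant a nonzero point whose short `x`-coordinate is a root
of `psi3` is `3`-torsion. -/
theorem three_nsmul_of_psi3 (hΔ : W.Δ ≠ 0) {P : W.Point} (hP : P ≠ 0)
    (h : psi3 (cA W) (cB W) (px P) = 0) : 3 • P = 0 := by
  rw [three_nsmul_eq_zero_iff]
  have hsq := pe_sq hP
  have he : pe P ≠ 0 := by
    intro he
    apply hΔ
    rw [delta_eq]
    rw [he] at hsq
    simp only [psi3] at h
    have h1 : px P ^ 3 + cA W * px P + cB W = 0 := by
      have h4 : (4 : F) ≠ 0 := by norm_num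
      have h5 : 4 * (px P ^ 3 + cA W * px P + cB W) = 0 := by linear_combination -hsq
      exact (mul_eq_zero.mp h5).resolve_left h4
    grind
  obtain ⟨hPP, hx, -⟩ := dbl_formula hP he
  have hx' : px (P + P) = px P := by
    rw [hx]
    simp only [psi3] at h
    field_simp
    linear_combination -h - 3 * px P * hsq
  rcases eq_or_eq_neg_of_px_eq hPP hP hx' with h1 | h1
  · exfalso
    apply hP
    have : P + P = P + 0 := by rw [add_zero]; exact h1
    exact add_left_cancel this
  · exact h1

section exist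

variable [IsAlgClosed F]

open Polynomial in
lemma exists_root_psi3 (A B : F) : ∃ ξ : F, psi3 A B ξ = 0 := by
  let p : F[X] := C 3 * X ^ 4 + C (6 * A) * X ^ 2 + C (12 * B) * X - C (A ^ 2)
  have hdeg : p.natDegree = 4 := by
    simp only [p]
    compute_degree!
  have hp : p.degree ≠ 0 := by
    intro h0
    have h1 : p.natDegree = 0 := natDegree_eq_of_degree_eq_some h0
    omega
  obtain ⟨ξ, hξ⟩ := IsAlgClosed.exists_root p hp
  refine ⟨ξ, ?_⟩
  simp only [p, IsRoot.def, eval_add, eval_sub, eval_mul, eval_C, eval_pow, eval_X] at hξ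
  simpa only [psi3] using hξ

/-- Over an algebraically closed field of characteristic zero there is a nonzero
`3`-torsion point. -/
theorem exists_three_torsion (hΔ : W.Δ ≠ 0) : ∃ P : W.Point, P ≠ 0 ∧ 3 • P = 0 := by
  obtain ⟨ξ, hξ⟩ := exists_root_psi3 (cA W) (cB W)
  obtain ⟨η, hη⟩ := IsAlgClosed.exists_pow_nat_eq (4 * (ξ ^ 3 + cA W * ξ + cB W)) (n := 2)
    (by norm_num)
  obtain ⟨P, hP, hx, -⟩ := exists_point hΔ ξ η hη
  exact ⟨P, hP, three_nsmul_of_psi3 hΔ hP (hx ▸ hξ)⟩

end exist

section card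

open Polynomial in
/-- The set of nonzero points with a given short `x`-coordinate has at most two elements. -/
lemma ncard_px_eq_le (W : Affine F) (ξ : F) :
    {P : W.Point | P ≠ 0 ∧ px P = ξ}.Finite ∧ {P : W.Point | P ≠ 0 ∧ px P = ξ}.ncard ≤ 2 := by
  by_cases hne : {P : W.Point | P ≠ 0 ∧ px P = ξ}.Nonempty
  · obtain ⟨P₀, hP₀, hx₀⟩ := hne
    have hsub : {P : W.Point | P ≠ 0 ∧ px P = ξ} ⊆ {P₀, -P₀} := by
      rintro Q ⟨hQ, hxQ⟩
      rcases eq_or_eq_neg_of_px_eq hQ hP₀ (hxQ.trans hx₀.symm) with h | h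
      · exact Or.inl h
      · exact Or.inr h
    have hfin : ({P₀, -P₀} : Set W.Point).Finite := Set.toFinite _
    refine ⟨hfin.subset hsub, (Set.ncard_le_ncard hsub hfin).trans ?_⟩
    exact (Set.ncard_insert_le _ _).trans (by simp)
  · rw [Set.not_nonempty_iff_eq_empty] at hne
    rw [hne]
    simp

open Polynomial in
/-- General counting lemma: if the short `x`-coordinates of the nonzero points in a set `T` are
roots of a nonzero polynomial `p`, then `T` is finite with at most `2 * deg p + 1` elements. -/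
lemma finite_ncard_le_of_roots (W : Affine F) (T : Set W.Point) (p : F[X]) (hp : p ≠ 0)
    (hT : ∀ P ∈ T, P ≠ 0 → p.eval (px P) = 0) :
    T.Finite ∧ T.ncard ≤ 2 * p.natDegree + 1 := by
  classical
  let R : Finset F := p.roots.toFinset
  have hRcard : R.card ≤ p.natDegree :=
    (Multiset.toFinset_card_le _).trans (card_roots' p)
  let U : Set W.Point := ⋃ ξ ∈ R, {P : W.Point | P ≠ 0 ∧ px P = ξ}
  have hUfin : U.Finite :=
    Set.Finite.biUnion R.finite_toSet fun ξ _ => (ncard_px_eq_le W ξ).1
  have hUcard : U.ncard ≤ 2 * p.natDegree := by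
    calc U.ncard ≤ ∑ ξ ∈ R, {P : W.Point | P ≠ 0 ∧ px P = ξ}.ncard :=
          Finset.set_ncard_biUnion_le R _
      _ ≤ ∑ _ξ ∈ R, 2 := Finset.sum_le_sum fun ξ _ => (ncard_px_eq_le W ξ).2
      _ = 2 * R.card := by rw [Finset.sum_const, smul_eq_mul, mul_comm]
      _ ≤ 2 * p.natDegree := Nat.mul_le_mul_left 2 hRcard
  have hsub : T ⊆ insert 0 U := by
    intro P hPT
    by_cases hP : P = 0
    · exact Or.inl hP
    · refine Or.inr ?_
      simp only [U, Set.mem_iUnion, Set.mem_ofPred_eq, exists_prop]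
      refine ⟨px P, ?_, hP, rfl⟩
      simp only [R, Multiset.mem_toFinset]
      exact (mem_roots hp).mpr (hT P hPT hP)
  have hfin : (insert 0 U).Finite := hUfin.insert 0
  refine ⟨hfin.subset hsub, (Set.ncard_le_ncard hsub hfin).trans ?_⟩
  exact (Set.ncard_insert_le _ _).trans (by omega)

open Polynomial in
theorem card_torsion_three :
    Finite (Submodule.torsionBy ℤ W.Point (3 : ℕ)) ∧
      Nat.card (Submodule.torsionBy ℤ W.Point (3 : ℕ)) ≤ 3 ^ 2 := by
  let p : F[X] := C 3 * X ^ 4 + C (6 * cA W) * X ^ 2 + C (12 * cB W) * X - C (cA W ^ 2)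
  have hdeg : p.natDegree = 4 := by
    simp only [p]
    compute_degree!
  have hp : p ≠ 0 := by
    intro h0
    rw [h0] at hdeg
    simp at hdeg
  have key := finite_ncard_le_of_roots W
    (Submodule.torsionBy ℤ W.Point (3 : ℕ) : Set W.Point) p hp (by
      intro P hPT hP
      have h3 : 3 • P = 0 := by
        have := (Submodule.mem_torsionBy_iff _ _).mp hPT
        rw [natCast_zsmul] at this
        exact this
      have := (psi3_of_three_nsmul hP h3).2
      simp only [psi3] at this
      simp only [p, eval_add, eval_sub, eval_mul, eval_C, eval_pow, eval_X]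
      exact this)
  rw [hdeg] at key
  refine ⟨key.1, ?_⟩
  have h9 := key.2
  rw [← Nat.card_coe_set_eq] at h9
  exact h9.trans (by norm_num)

end card

end Fermat.Agent.S51
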