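import Mathlib
import Fermat.Prelude.Def_FLTPrelim_GaloisRep
import Fermat.Agent.S51.Tors3
import Fermat.Agent.S51.GalAct
import Fermat.Agent.S51.LinAlg
import Fermat.Agent.S51.GalFixed

set_option autoImplicit false

namespace Fermat.Agent.S51

open WeierstrassCurve WeierstrassCurve.Affine

local notation "Qbar" => AlgebraicClosure ℚ

/-- If the mod-`3` representation of `E/ℚ` is not irreducible, there is a nonzero `3`-torsion
point whose short `x`-coordinate is rational. -/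
theorem exists_rat_of_not_irreducible_three (E : WeierstrassCurve.Affine ℚ) (hΔ : E.Δ ≠ 0)
    (h : ¬ WeierstrassCurve.Affine.Point.GaloisRepIsIrreducible (K := AlgebraicClosure ℚ) ℚ E 3) :
    ∃ (x₀ : ℚ) (P : (E⁄(AlgebraicClosure ℚ)).Point), P ≠ 0 ∧ 3 • P = 0 ∧
      px P = algebraMap ℚ (AlgebraicClosure ℚ) x₀ := by
  have : Fact (Nat.Prime 3) := ⟨Nat.prime_three⟩
  have hΔ' : (E⁄Qbar).Δ ≠ 0 := Δ_baseChange_ne_zero hΔ
  -- the torsion module is nontrivial
  obtain ⟨P₀, hP₀, h3P₀⟩ := exists_three_torsion (W := E⁄Qbar) hΔ'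
  have hmem₀ : P₀ ∈ Submodule.torsionBy ℤ (E⁄Qbar).Point ((3 : ℕ) : ℤ) := by
    rw [Submodule.mem_torsionBy_iff, natCast_zsmul]
    exact h3P₀
  have hnt : Nontrivial (Submodule.torsionBy ℤ (E⁄Qbar).Point ((3 : ℕ) : ℤ)) :=
    nontrivial_of_ne ⟨P₀, hmem₀⟩ 0 (fun h0 => hP₀ (congrArg Subtype.val h0))
  unfold WeierstrassCurve.Affine.Point.GaloisRepIsIrreducible at h
  rw [not_and] at h
  have h' := h hnt
  push Not at h'
  obtain ⟨N, hstab, hN0, hN1⟩ := h'
  obtain ⟨hfin, hcard⟩ := card_torsion_three (W := E⁄Qbar)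
  have := hfin
  obtain ⟨v, hvN, hv0, hgen⟩ := exists_generator_of_proper (p := 3) hcard N hN0 hN1
  have hP : (v : (E⁄Qbar).Point) ≠ 0 := fun h0 => hv0 (Subtype.ext h0)
  have h3 : 3 • (v : (E⁄Qbar).Point) = 0 := by
    have := (Submodule.mem_torsionBy_iff _ _).mp v.2
    rw [natCast_zsmul] at this
    exact this
  have hfix : ∀ σ : Qbar ≃ₐ[ℚ] Qbar, σ (px (v : (E⁄Qbar).Point)) = px (v : (E⁄Qbar).Point) := by
    intro σ
    obtain ⟨k, hk⟩ := hgen (σ • v) (hstab σ v hvN)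
    have hk' : σ • (v : (E⁄Qbar).Point) = k.val • (v : (E⁄Qbar).Point) := by
      have h1 : (σ • v : Submodule.torsionBy ℤ (E⁄Qbar).Point ((3 : ℕ) : ℤ)) = k.val • v := by
        rw [hk, ← Nat.cast_smul_eq_nsmul (ZMod 3), ZMod.natCast_zmod_val]
      have h2 := congrArg Subtype.val h1
      rw [AddSubmonoidClass.coe_nsmul] at h2
      exact h2
    rw [← px_smul, hk']
    have hlt : k.val < 3 := ZMod.val_lt k
    interval_cases hkv : k.val
    · exfalso
      rw [zero_smul] at hk'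
      exact hP ((smul_eq_zero_iff E σ _).mp hk')
    · rw [one_smul]
    · rw [two_smul, (three_nsmul_eq_zero_iff _).mp h3, px_neg]
  obtain ⟨q, hq⟩ := mem_range_of_fixed _ hfix
  exact ⟨q, v, hP, h3, hq.symm⟩

end Fermat.Agent.S51
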