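import Mathlib
import Fermat.Agent.S51.Coords
import Fermat.Agent.S51.Tors3

set_option autoImplicit false
set_option linter.unusedSectionVars false

namespace Fermat.Agent.S51

open WeierstrassCurve WeierstrassCurve.Affine

variable {F : Type*} [Field F] [CharZero F] [DecidableEq F]

namespace Tors5

/-- The cubic `x³ + A x + B`. -/
def fF (A B x : F) : F := x ^ 3 + A * x + B

/-- Numerator of the duplication formula: `x(2P) * 4 f(x) = nF(x)`. -/
def nF (A B x : F) : F := x ^ 4 - 2 * A * x ^ 2 - 8 * B * x + A ^ 2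

/-- Numerator of `y(2P)`: `pe (2P) * pe P ^ 3 = 2 * g4`. -/
def g4 (A B x : F) : F := (3 * x ^ 2 + A) * psi3 A B x - 8 * fF A B x ^ 2

/-- The fifth division polynomial of `y² = x³ + A x + B` (in terms of `x`). -/
def psi5 (A B x : F) : F := 32 * fF A B x ^ 2 * g4 A B x - psi3 A B x ^ 3

/-- Key identity: `x(4P) = x(P)` expressed via the duplication formula factors through
`psi3 * psi5`. -/
lemma key_identity (A B x b : F) (hb : b * (4 * fF A B x) = nF A B x) :
    (nF A B b - x * (4 * fF A B b)) * (4 * fF A B x) ^ 4 = -(psi3 A B x * psi5 A B x) := by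
  have e1 : nF A B b * (4 * fF A B x) ^ 4 =
      (b * (4 * fF A B x)) ^ 4 - 2 * A * (b * (4 * fF A B x)) ^ 2 * (4 * fF A B x) ^ 2
        - 8 * B * (b * (4 * fF A B x)) * (4 * fF A B x) ^ 3 + A ^ 2 * (4 * fF A B x) ^ 4 := by
    simp only [nF]
    ring
  have e2 : (4 * fF A B b) * (4 * fF A B x) ^ 4 =
      4 * ((b * (4 * fF A B x)) ^ 3 + A * (b * (4 * fF A B x)) * (4 * fF A B x) ^ 2
        + B * (4 * fF A B x) ^ 3) * (4 * fF A B x) := by
    simp only [fF]
    ring
  rw [sub_mul, mul_assoc, e1, e2, hb]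
  simp only [nF, fF, psi3, psi5, g4]
  ring

lemma psi3_eq (A B x : F) : psi3 A B x = 12 * x * fF A B x - (3 * x ^ 2 + A) ^ 2 := by
  simp only [psi3, fF]
  ring

lemma disc_eq (A B x : F) :
    4 * A ^ 3 + 27 * B ^ 2 =
      (-27 * (x ^ 3 + A * x - B) + 12 * x * (3 * x ^ 2 + 4 * A)) * fF A B x
        - (3 * x ^ 2 + 4 * A) * psi3 A B x := by
  simp only [psi3, fF]
  ring

variable {W : Affine F}

/-- `px (2P) * 4f = N`. -/
lemma dbl_px_mul {P : W.Point} (hP : P ≠ 0) (he : pe P ≠ 0) :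
    px (P + P) * (4 * fF (cA W) (cB W) (px P)) = nF (cA W) (cB W) (px P) := by
  obtain ⟨_, h2, _⟩ := dbl_formula hP he
  have hsq := pe_sq hP
  have h2' : px (P + P) * pe P ^ 2 = (3 * px P ^ 2 + cA W) ^ 2 - 2 * px P * pe P ^ 2 := by
    rw [h2]
    field_simp
  simp only [fF, nF]
  linear_combination h2' + (-px (P + P) - 2 * px P) * hsq

/-- `pe (2P) * pe P ^ 3 = 2 g4`. -/
lemma dbl_pe_mul {P : W.Point} (hP : P ≠ 0) (he : pe P ≠ 0) :
    pe (P + P) * pe P ^ 3 = 2 * g4 (cA W) (cB W) (px P) := by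
  obtain ⟨_, h2, h3⟩ := dbl_formula hP he
  have hsq := pe_sq hP
  have h3' : pe (P + P) * pe P ^ 3 =
      -2 * (3 * px P ^ 2 + cA W) ^ 3 + 6 * px P * (3 * px P ^ 2 + cA W) * pe P ^ 2
        - pe P ^ 4 := by
    rw [h3, h2]
    field_simp
    ring
  simp only [g4, fF, psi3]
  linear_combination h3' + (6 * px P * (3 * px P ^ 2 + cA W) - pe P ^ 2
    - 4 * (px P ^ 3 + cA W * px P + cB W)) * hsq

/-- `(px (2P) - px P) * 4f = -psi3`. -/
lemma dbl_px_sub_mul {P : W.Point} (hP : P ≠ 0) (he : pe P ≠ 0) :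
    (px (P + P) - px P) * (4 * fF (cA W) (cB W) (px P)) = -psi3 (cA W) (cB W) (px P) := by
  have h := dbl_px_mul hP he
  simp only [fF, nF, psi3] at h ⊢
  linear_combination h

lemma four_f_eq {P : W.Point} (hP : P ≠ 0) :
    4 * fF (cA W) (cB W) (px P) = pe P ^ 2 := by
  rw [pe_sq hP]
  simp only [fF]

lemma four_f_ne_zero {P : W.Point} (hP : P ≠ 0) (he : pe P ≠ 0) :
    4 * fF (cA W) (cB W) (px P) ≠ 0 := by
  rw [four_f_eq hP]
  exact pow_ne_zero 2 he

/-- Basic facts about a nonzero `5`-torsion point. -/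
lemma five_setup {P : W.Point} (hP : P ≠ 0) (h5 : 5 • P = 0) :
    pe P ≠ 0 ∧ P + P ≠ 0 ∧ pe (P + P) ≠ 0 ∧ (P + P) + (P + P) = -P ∧ px (P + P) ≠ px P := by
  have h5' : (P + P) + (P + P) + P = 0 := by
    rw [← h5]
    abel
  have he : pe P ≠ 0 := by
    intro he
    have h0 := (add_self_eq_zero_iff hP).mpr he
    rw [h0, add_zero, zero_add] at h5'
    exact hP h5'
  have hQ : P + P ≠ 0 := (dbl_formula hP he).1
  have heQ : pe (P + P) ≠ 0 := by
    intro he2
    have h0 := (add_self_eq_zero_iff hQ).mpr he2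
    rw [h0, zero_add] at h5'
    exact hP h5'
  have hQQ : (P + P) + (P + P) = -P := eq_neg_of_add_eq_zero_left h5'
  refine ⟨he, hQ, heQ, hQQ, ?_⟩
  intro hx
  rcases eq_or_eq_neg_of_px_eq hQ hP hx with h | h
  · have h' : P + P = P + 0 := by rw [add_zero]; exact h
    exact hP (add_left_cancel h')
  · rw [h] at hQQ
    have h' : -P + -P = -P + 0 := by rw [add_zero]; exact hQQ
    exact hP (neg_eq_zero.mp (add_left_cancel h'))

/-- The short `x`-coordinate of a nonzero `5`-torsion point is a root of `psi5`. -/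
lemma psi5_of_five_nsmul {P : W.Point} (hP : P ≠ 0) (h5 : 5 • P = 0) :
    psi5 (cA W) (cB W) (px P) = 0 := by
  obtain ⟨he, hQ, heQ, hQQ, hne⟩ := five_setup hP h5
  have hb := dbl_px_mul hP he
  have hb2 := dbl_px_mul hQ heQ
  rw [hQQ, px_neg] at hb2
  have hkey := key_identity (cA W) (cB W) (px P) (px (P + P)) hb
  rw [← hb2, sub_self, zero_mul] at hkey
  have h3 : psi3 (cA W) (cB W) (px P) ≠ 0 := by
    intro h3
    have hs := dbl_px_sub_mul hP he
    rw [h3, neg_zero] at hs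
    rcases mul_eq_zero.mp hs with h | h
    · exact hne (sub_eq_zero.mp h)
    · exact four_f_ne_zero hP he h
  have hkey' : psi3 (cA W) (cB W) (px P) * psi5 (cA W) (cB W) (px P) = 0 := by
    linear_combination hkey
  exact (mul_eq_zero.mp hkey').resolve_left h3

open Polynomial in
/-- The polynomial version of `psi5`. -/
noncomputable def psi5P (A B : F) : F[X] :=
  C 32 * (X ^ 3 + C A * X + C B) ^ 2 *
      ((C 3 * X ^ 2 + C A) * (C 3 * X ^ 4 + C (6 * A) * X ^ 2 + C (12 * B) * X - C (A ^ 2)) -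
        C 8 * (X ^ 3 + C A * X + C B) ^ 2) -
    (C 3 * X ^ 4 + C (6 * A) * X ^ 2 + C (12 * B) * X - C (A ^ 2)) ^ 3

open Polynomial in
lemma natDegree_psi5P (A B : F) : (psi5P A B).natDegree = 12 := by
  unfold psi5P
  compute_degree!

open Polynomial in
lemma eval_psi5P (A B x : F) : (psi5P A B).eval x = psi5 A B x := by
  simp only [psi5P, psi5, g4, fF, psi3, eval_add, eval_sub, eval_mul, eval_C, eval_pow, eval_X]

lemma psi5P_ne_zero (A B : F) : psi5P A B ≠ 0 := by
  intro h0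
  have h := natDegree_psi5P A B
  rw [h0] at h
  simp at h

end Tors5

variable {W : Affine F}

/-- Parametrisation of a curve with a nonzero `5`-torsion point by the two slopes
`l₁` (tangent at `P`) and `l₂` (tangent at `2P`). -/
theorem five_torsion_param {P : W.Point} (hP : P ≠ 0) (h5 : 5 • P = 0) :
    ∃ l₁ l₂ : F, l₂ ^ 2 ≠ l₁ ^ 2 ∧ px P = (2 * l₁ ^ 2 - l₂ ^ 2) / 3 ∧
      px (2 • P) = (2 * l₂ ^ 2 - l₁ ^ 2) / 3 ∧
      cA W = -(l₁ * (l₁ + l₂) * (l₂ ^ 2 - l₁ ^ 2)) - 3 * ((2 * l₁ ^ 2 - l₂ ^ 2) / 3) ^ 2 ∧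
      cB W = ((l₁ + l₂) * (l₂ ^ 2 - l₁ ^ 2)) ^ 2 / 4 - ((2 * l₁ ^ 2 - l₂ ^ 2) / 3) ^ 3 -
        cA W * ((2 * l₁ ^ 2 - l₂ ^ 2) / 3) := by
  obtain ⟨he, hQ, heQ, hQQ, hne⟩ := Tors5.five_setup hP h5
  obtain ⟨-, hx1, he1⟩ := dbl_formula hP he
  obtain ⟨-, hx2, he2⟩ := dbl_formula hQ heQ
  rw [hQQ, px_neg] at hx2
  rw [hQQ, pe_neg, px_neg] at he2
  have hsq := pe_sq hP
  have hl1e : (3 * px P ^ 2 + cA W) / pe P * pe P = 3 * px P ^ 2 + cA W := by
    field_simp
  rw [two_nsmul]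
  generalize (3 * px P ^ 2 + cA W) / pe P = l₁ at hx1 he1 hl1e
  generalize (3 * px (P + P) ^ 2 + cA W) / pe (P + P) = l₂ at hx2 he2
  have hα : px P = (2 * l₁ ^ 2 - l₂ ^ 2) / 3 := by
    linear_combination (2 / 3 : F) * hx1 - (1 / 3 : F) * hx2
  have hβ : px (P + P) = (2 * l₂ ^ 2 - l₁ ^ 2) / 3 := by
    linear_combination (-1 / 3 : F) * hx1 + (2 / 3 : F) * hx2
  have hpe : pe P = -((l₁ + l₂) * (l₂ ^ 2 - l₁ ^ 2)) := by
    linear_combination (1 / 2 : F) * he1 - (1 / 2 : F) * he2 - (l₁ + l₂) * (hβ - hα)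
  refine ⟨l₁, l₂, ?_, hα, hβ, ?_, ?_⟩
  · intro h
    apply hne
    linear_combination hβ - hα + h
  · linear_combination -hl1e + l₁ * hpe
      - 3 * (px P + (2 * l₁ ^ 2 - l₂ ^ 2) / 3) * hα
  · linear_combination (-1 / 4 : F) * hsq
      + (1 / 4 : F) * (pe P - (l₁ + l₂) * (l₂ ^ 2 - l₁ ^ 2)) * hpe
      - (px P ^ 2 + px P * ((2 * l₁ ^ 2 - l₂ ^ 2) / 3) + ((2 * l₁ ^ 2 - l₂ ^ 2) / 3) ^ 2
        + cA W) * hα

/-- The `5`-torsion is finite with fewer than `5 ^ 3` elements. -/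
theorem card_torsion_five :
    Finite (Submodule.torsionBy ℤ W.Point (5 : ℕ)) ∧
      Nat.card (Submodule.torsionBy ℤ W.Point (5 : ℕ)) < 5 ^ 3 := by
  have key := finite_ncard_le_of_roots W
    (Submodule.torsionBy ℤ W.Point (5 : ℕ) : Set W.Point) (Tors5.psi5P (cA W) (cB W))
    (Tors5.psi5P_ne_zero _ _) (by
      intro P hPT hP
      have h5 : 5 • P = 0 := by
        have := (Submodule.mem_torsionBy_iff _ _).mp hPT
        rw [natCast_zsmul] at this
        exact this
      rw [Tors5.eval_psi5P]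
      exact Tors5.psi5_of_five_nsmul hP h5)
  rw [Tors5.natDegree_psi5P] at key
  refine ⟨key.1, ?_⟩
  have h := key.2
  rw [← Nat.card_coe_set_eq] at h
  exact lt_of_le_of_lt h (by norm_num)

/-- Over an algebraically closed field of characteristic zero there is a nonzero
`5`-torsion point. -/
theorem exists_five_torsion [IsAlgClosed F] (hΔ : W.Δ ≠ 0) :
    ∃ P : W.Point, P ≠ 0 ∧ 5 • P = 0 := by
  have hdeg : (Tors5.psi5P (cA W) (cB W)).degree ≠ 0 := by
    intro h0
    have h1 : (Tors5.psi5P (cA W) (cB W)).natDegree = 0 :=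
      Polynomial.natDegree_eq_of_degree_eq_some h0
    rw [Tors5.natDegree_psi5P] at h1
    omega
  obtain ⟨α, hα⟩ := IsAlgClosed.exists_root _ hdeg
  rw [Polynomial.IsRoot.def, Tors5.eval_psi5P] at hα
  -- `f α ≠ 0`
  have hdisc : 4 * cA W ^ 3 + 27 * cB W ^ 2 ≠ 0 := by
    intro h
    apply hΔ
    rw [delta_eq, h, mul_zero]
  have hf : Tors5.fF (cA W) (cB W) α ≠ 0 := by
    intro hf
    have h3 : psi3 (cA W) (cB W) α = 0 := by
      have : psi3 (cA W) (cB W) α ^ 3 = 0 := by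
        have h := hα
        simp only [Tors5.psi5] at h
        rw [hf] at h
        linear_combination -h
      exact pow_eq_zero_iff (n := 3) (by norm_num) |>.mp this
    apply hdisc
    rw [Tors5.disc_eq (cA W) (cB W) α, hf, h3]
    ring
  obtain ⟨η, hη⟩ := IsAlgClosed.exists_pow_nat_eq (4 * (α ^ 3 + cA W * α + cB W)) (n := 2)
    (by norm_num)
  obtain ⟨P, hP, hx, hpe⟩ := exists_point hΔ α η hη
  have h4f : 4 * Tors5.fF (cA W) (cB W) (px P) ≠ 0 := by
    rw [hx]
    exact mul_ne_zero (by norm_num) hf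
  have he : pe P ≠ 0 := by
    intro he
    apply h4f
    rw [Tors5.four_f_eq hP, he]
    ring
  have hg4 : Tors5.g4 (cA W) (cB W) α ≠ 0 := by
    intro hg
    have h3 : psi3 (cA W) (cB W) α = 0 := by
      have : psi3 (cA W) (cB W) α ^ 3 = 0 := by
        have h := hα
        simp only [Tors5.psi5] at h
        rw [hg] at h
        linear_combination -h
      exact pow_eq_zero_iff (n := 3) (by norm_num) |>.mp this
    have hg' := hg
    simp only [Tors5.g4] at hg'
    rw [h3] at hg'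
    have : Tors5.fF (cA W) (cB W) α ^ 2 = 0 := by linear_combination (-1 / 8 : F) * hg'
    exact hf (pow_eq_zero_iff (n := 2) (by norm_num) |>.mp this)
  obtain ⟨hQ, -, -⟩ := dbl_formula hP he
  have heQ : pe (P + P) ≠ 0 := by
    intro h0
    have h := Tors5.dbl_pe_mul hP he
    rw [h0, zero_mul, hx] at h
    apply hg4
    linear_combination (-1 / 2 : F) * h
  obtain ⟨hR, -, -⟩ := dbl_formula hQ heQ
  have hb := Tors5.dbl_px_mul hP he
  have hb2 := Tors5.dbl_px_mul hQ heQ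
  have hkey := Tors5.key_identity (cA W) (cB W) (px P) (px (P + P)) hb
  rw [hx] at hkey
  rw [hα, mul_zero, neg_zero] at hkey
  rw [← hx] at hkey
  have hkey2 : Tors5.nF (cA W) (cB W) (px (P + P))
      - px P * (4 * Tors5.fF (cA W) (cB W) (px (P + P))) = 0 :=
    (mul_eq_zero.mp hkey).resolve_right (pow_ne_zero 4 h4f)
  have hxR : px (P + P + (P + P)) = px P := by
    have h4fQ := Tors5.four_f_ne_zero hQ heQ
    apply mul_right_cancel₀ h4fQ
    rw [hb2]
    linear_combination hkey2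
  rcases eq_or_eq_neg_of_px_eq hR hP hxR with h | h
  · -- `4P = P`, so `3P = 0`, contradiction
    exfalso
    have h3P : 3 • P = 0 := by
      have h' : P + 3 • P = P + 0 := by
        rw [add_zero]
        calc P + 3 • P = P + P + (P + P) := by abel
          _ = P := h
      exact add_left_cancel h'
    have h3 := (psi3_of_three_nsmul hP h3P).2
    rw [hx] at h3
    have h := hα
    simp only [Tors5.psi5] at h
    rw [h3] at h
    have : Tors5.fF (cA W) (cB W) α ^ 2 * Tors5.g4 (cA W) (cB W) α = 0 := by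
      linear_combination (1 / 32 : F) * h
    rcases mul_eq_zero.mp this with h' | h'
    · exact hf (pow_eq_zero_iff (n := 2) (by norm_num) |>.mp h')
    · exact hg4 h'
  · refine ⟨P, hP, ?_⟩
    have : 5 • P = (P + P + (P + P)) + P := by abel
    rw [this, h, neg_add_cancel]

end Fermat.Agent.S51
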