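import Mathlib
import Fermat.Prelude.Def_FLTPrelim_GaloisRep
import Fermat.Agent.S51.Coords
import Fermat.Agent.S51.Tors5
import Fermat.Agent.S51.GalAct
import Fermat.Agent.S51.LinAlg
import Fermat.Agent.S51.GalFixed

set_option autoImplicit false

namespace Fermat.Agent.S51

open WeierstrassCurve WeierstrassCurve.Affine WeierstrassCurve.Affine.Point

namespace Gal5

/-- Multiples of a point of order five: the `x`-coordinates of `m • Q` and `(2 m) • Q` are a
permutation of those of `Q` and `2 • Q`. -/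
theorem px_multiples {F : Type*} [Field F] [CharZero F] [DecidableEq F] {W : Affine F}
    {Q : W.Point} (h5 : 5 • Q = 0) (m : ℕ) (hm : m < 5) (hmQ : m • Q ≠ 0) :
    (px (m • Q) = px Q ∧ px (2 • m • Q) = px (2 • Q)) ∨
    (px (m • Q) = px (2 • Q) ∧ px (2 • m • Q) = px Q) := by
  have h4 : 4 • Q = -Q := eq_neg_of_add_eq_zero_left ((succ_nsmul Q 4).symm.trans h5)
  have h3 : (3 • Q : W.Point) = -((2 • Q : W.Point)) := eq_neg_of_add_eq_zero_left ((add_nsmul Q 3 2).symm.trans h5)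
  have h6 : 6 • Q = Q := by
    have : 6 • Q = 5 • Q + Q := succ_nsmul Q 5
    rw [this, h5, zero_add]
  have h8 : 8 • Q = 3 • Q := by
    have : 8 • Q = 5 • Q + 3 • Q := add_nsmul Q 5 3
    rw [this, h5, zero_add]
  have hcases : m = 0 ∨ m = 1 ∨ m = 2 ∨ m = 3 ∨ m = 4 := by omega
  rcases hcases with rfl | rfl | rfl | rfl | rfl
  · exact absurd (zero_nsmul Q) hmQ
  · left
    simp only [one_nsmul, and_self]
  · right
    refine ⟨rfl, ?_⟩
    rw [← mul_nsmul, show 2 * 2 = 4 from rfl, h4, px_neg]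
  · right
    refine ⟨by rw [h3, px_neg], ?_⟩
    rw [← mul_nsmul, show 3 * 2 = 6 from rfl, h6]
  · left
    refine ⟨by rw [h4, px_neg], ?_⟩
    rw [← mul_nsmul, show 4 * 2 = 8 from rfl, h8, h3, px_neg]

end Gal5

theorem exists_rat_of_not_irreducible_five (E : WeierstrassCurve.Affine ℚ) (hΔ : E.Δ ≠ 0)
    (h : ¬ WeierstrassCurve.Affine.Point.GaloisRepIsIrreducible (K := AlgebraicClosure ℚ) ℚ E 5) :
    ∃ (s p : ℚ) (Q : (E⁄(AlgebraicClosure ℚ)).Point), Q ≠ 0 ∧ 5 • Q = 0 ∧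
      px Q + px (2 • Q) = algebraMap ℚ (AlgebraicClosure ℚ) s ∧
      px Q * px (2 • Q) = algebraMap ℚ (AlgebraicClosure ℚ) p := by
  classical
  have hΔK : (E⁄(AlgebraicClosure ℚ)).Δ ≠ 0 := Δ_baseChange_ne_zero hΔ
  obtain ⟨P₀, hP₀, h5P₀⟩ := exists_five_torsion (W := (E⁄(AlgebraicClosure ℚ))) hΔK
  have hnt : Nontrivial (Submodule.torsionBy ℤ (E⁄(AlgebraicClosure ℚ)).Point ((5 : ℕ) : ℤ)) := by
    refine ⟨⟨⟨P₀, ?_⟩, 0, ?_⟩⟩
    · rw [Submodule.mem_torsionBy_iff, Nat.cast_smul_eq_nsmul]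
      exact h5P₀
    · intro h0
      exact hP₀ (congrArg Subtype.val h0)
  unfold GaloisRepIsIrreducible at h
  push Not at h
  obtain ⟨N, hN, hN0, hN1⟩ := h hnt
  obtain ⟨hfin, hcard⟩ := card_torsion_five (W := (E⁄(AlgebraicClosure ℚ)))
  have : Fact (Nat.Prime 5) := ⟨by norm_num⟩
  obtain ⟨v, hvN, hv0, hv⟩ := exists_generator_of_proper_lt hcard N hN0 hN1
  have hQ0 : (v : (E⁄(AlgebraicClosure ℚ)).Point) ≠ 0 := fun h0 => hv0 (Subtype.ext h0)
  have h5Q : 5 • (v : (E⁄(AlgebraicClosure ℚ)).Point) = 0 := by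
    have := v.2
    rw [Submodule.mem_torsionBy_iff, Nat.cast_smul_eq_nsmul] at this
    exact this
  -- the action of Galois on the generator
  have key : ∀ σ : AlgebraicClosure ℚ ≃ₐ[ℚ] AlgebraicClosure ℚ,
      (σ (px (v : (E⁄(AlgebraicClosure ℚ)).Point)) = px (v : (E⁄(AlgebraicClosure ℚ)).Point) ∧
        σ (px (2 • (v : (E⁄(AlgebraicClosure ℚ)).Point))) =
          px (2 • (v : (E⁄(AlgebraicClosure ℚ)).Point))) ∨
      (σ (px (v : (E⁄(AlgebraicClosure ℚ)).Point)) =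
          px (2 • (v : (E⁄(AlgebraicClosure ℚ)).Point)) ∧
        σ (px (2 • (v : (E⁄(AlgebraicClosure ℚ)).Point))) =
          px (v : (E⁄(AlgebraicClosure ℚ)).Point)) := by
    intro σ
    obtain ⟨k, hk⟩ := hv (σ • v) (hN σ v hvN)
    have hk' : σ • (v : (E⁄(AlgebraicClosure ℚ)).Point) =
        k.val • (v : (E⁄(AlgebraicClosure ℚ)).Point) := by
      have h1 : k • v = k.val • v := by
        conv_lhs => rw [← ZMod.natCast_zmod_val k]
        exact Nat.cast_smul_eq_nsmul (ZMod 5) k.val v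
      have h2 : ((σ • v : Submodule.torsionBy ℤ (E⁄(AlgebraicClosure ℚ)).Point ((5 : ℕ) : ℤ)) :
          (E⁄(AlgebraicClosure ℚ)).Point) = k.val • (v : (E⁄(AlgebraicClosure ℚ)).Point) := by
        simpa using congrArg Subtype.val (hk.trans h1)
      exact h2
    have hne : k.val • (v : (E⁄(AlgebraicClosure ℚ)).Point) ≠ 0 := by
      rw [← hk']
      intro h0
      exact hQ0 ((smul_eq_zero_iff_eq σ).mp h0)
    have h2σ : σ • (2 • (v : (E⁄(AlgebraicClosure ℚ)).Point)) =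
        2 • k.val • (v : (E⁄(AlgebraicClosure ℚ)).Point) := by
      rw [two_nsmul, smul_add, hk', two_nsmul]
    have := Gal5.px_multiples h5Q k.val (ZMod.val_lt k) hne
    rw [← h2σ, ← hk', px_smul, px_smul] at this
    exact this
  have hsum : ∀ σ : AlgebraicClosure ℚ ≃ₐ[ℚ] AlgebraicClosure ℚ,
      σ (px (v : (E⁄(AlgebraicClosure ℚ)).Point) + px (2 • (v : (E⁄(AlgebraicClosure ℚ)).Point)))
        = px (v : (E⁄(AlgebraicClosure ℚ)).Point) +
          px (2 • (v : (E⁄(AlgebraicClosure ℚ)).Point)) := by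
    intro σ
    rcases key σ with ⟨h1, h2⟩ | ⟨h1, h2⟩
    · rw [map_add, h1, h2]
    · rw [map_add, h1, h2, add_comm]
  have hprod : ∀ σ : AlgebraicClosure ℚ ≃ₐ[ℚ] AlgebraicClosure ℚ,
      σ (px (v : (E⁄(AlgebraicClosure ℚ)).Point) * px (2 • (v : (E⁄(AlgebraicClosure ℚ)).Point)))
        = px (v : (E⁄(AlgebraicClosure ℚ)).Point) *
          px (2 • (v : (E⁄(AlgebraicClosure ℚ)).Point)) := by
    intro σ
    rcases key σ with ⟨h1, h2⟩ | ⟨h1, h2⟩
    · rw [map_mul, h1, h2]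
    · rw [map_mul, h1, h2, mul_comm]
  obtain ⟨s, hs⟩ := mem_range_of_fixed _ hsum
  obtain ⟨p, hp⟩ := mem_range_of_fixed _ hprod
  exact ⟨s, p, v, hQ0, h5Q, hs.symm, hp.symm⟩

end Fermat.Agent.S51
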