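import Mathlib

set_option autoImplicit false

namespace Fermat.Agent.S51

variable {F : Type*} [Field F] [CharZero F]

/-- Discriminant in terms of the 5-torsion parameters. -/
theorem delta_param (l₁ l₂ A B : F)
    (hA : A = -(l₁ * (l₁ + l₂) * (l₂ ^ 2 - l₁ ^ 2)) - 3 * ((2 * l₁ ^ 2 - l₂ ^ 2) / 3) ^ 2)
    (hB : B = ((l₁ + l₂) * (l₂ ^ 2 - l₁ ^ 2)) ^ 2 / 4 - ((2 * l₁ ^ 2 - l₂ ^ 2) / 3) ^ 3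
      - A * ((2 * l₁ ^ 2 - l₂ ^ 2) / 3)) :
    -16 * (4 * A ^ 3 + 27 * B ^ 2) =
      -((l₂ ^ 2 - l₁ ^ 2) ^ 5 * (4 * (l₁ * l₂) + 11 * (l₂ ^ 2 - l₁ ^ 2))) := by
  subst hB
  subst hA
  ring

/-- The relation on `X₀(15)` in terms of the 5-torsion parameters and a root of `psi3`. -/
theorem m3_cert (l₁ l₂ x A B : F)
    (hA : A = -(l₁ * (l₁ + l₂) * (l₂ ^ 2 - l₁ ^ 2)) - 3 * ((2 * l₁ ^ 2 - l₂ ^ 2) / 3) ^ 2)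
    (hB : B = ((l₁ + l₂) * (l₂ ^ 2 - l₁ ^ 2)) ^ 2 / 4 - ((2 * l₁ ^ 2 - l₂ ^ 2) / 3) ^ 3
      - A * ((2 * l₁ ^ 2 - l₂ ^ 2) / 3))
    (hpsi : 3 * x ^ 4 + 6 * A * x ^ 2 + 12 * B * x - A ^ 2 = 0) :
    (4 * (l₁ * l₂) + 11 * (l₂ ^ 2 - l₁ ^ 2)) ^ 2 *
        ((x - (2 * l₁ ^ 2 - l₂ ^ 2) / 3) * (x - (2 * l₂ ^ 2 - l₁ ^ 2) / 3)) ^ 5 *
        ((l₂ ^ 2 - l₁ ^ 2) ^ 2 - (x - (2 * l₁ ^ 2 - l₂ ^ 2) / 3) * (x - (2 * l₂ ^ 2 - l₁ ^ 2) / 3))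
      - 5 * (l₂ ^ 2 - l₁ ^ 2) * (4 * (l₁ * l₂) + 11 * (l₂ ^ 2 - l₁ ^ 2)) *
        ((x - (2 * l₁ ^ 2 - l₂ ^ 2) / 3) * (x - (2 * l₂ ^ 2 - l₁ ^ 2) / 3)) ^ 3 *
        (4 * (x ^ 3 + A * x + B)) ^ 2
      + ((l₂ ^ 2 - l₁ ^ 2) ^ 2
          + 9 * ((x - (2 * l₁ ^ 2 - l₂ ^ 2) / 3) * (x - (2 * l₂ ^ 2 - l₁ ^ 2) / 3))) *
        (4 * (x ^ 3 + A * x + B)) ^ 4 = 0 := by
  subst hB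
  subst hA
  linear_combination (1 / 19683 : F) *
    (4691 * l₁ ^ 20 - 27222 * l₁ ^ 19 * l₂ + 39182 * l₁ ^ 18 * l₂ ^ 2 - 37050 * l₁ ^ 18 * x
      + 57306 * l₁ ^ 17 * l₂ ^ 3 + 198468 * l₁ ^ 17 * l₂ * x - 296634 * l₁ ^ 16 * l₂ ^ 4
      + 27180 * l₁ ^ 16 * l₂ ^ 2 * x - 143721 * l₁ ^ 16 * x ^ 2 + 357576 * l₁ ^ 15 * l₂ ^ 5
      - 1579392 * l₁ ^ 15 * l₂ ^ 3 * x + 680832 * l₁ ^ 15 * l₂ * x ^ 2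
      + 561834 * l₁ ^ 14 * l₂ ^ 6 + 1550250 * l₁ ^ 14 * l₂ ^ 4 * x
      - 1269378 * l₁ ^ 14 * l₂ ^ 2 * x ^ 2 + 1141614 * l₁ ^ 14 * x ^ 3
      - 1594734 * l₁ ^ 13 * l₂ ^ 7 + 3261150 * l₁ ^ 13 * l₂ ^ 5 * x
      + 1571454 * l₁ ^ 13 * l₂ ^ 3 * x ^ 2 - 4982310 * l₁ ^ 13 * l₂ * x ^ 3
      - 397302 * l₁ ^ 12 * l₂ ^ 8 - 3942396 * l₁ ^ 12 * l₂ ^ 6 * x
      + 101628 * l₁ ^ 12 * l₂ ^ 4 * x ^ 2 + 2898180 * l₁ ^ 12 * l₂ ^ 2 * x ^ 3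
      - 466560 * l₁ ^ 12 * x ^ 4 + 2856138 * l₁ ^ 11 * l₂ ^ 9 - 2694780 * l₁ ^ 11 * l₂ ^ 7 * x
      - 7781832 * l₁ ^ 11 * l₂ ^ 5 * x ^ 2 + 11904732 * l₁ ^ 11 * l₂ ^ 3 * x ^ 3
      + 3697002 * l₁ ^ 11 * l₂ * x ^ 4 + 175098 * l₁ ^ 10 * l₂ ^ 10
      + 2412864 * l₁ ^ 10 * l₂ ^ 8 * x + 8481618 * l₁ ^ 10 * l₂ ^ 6 * x ^ 2
      - 11390058 * l₁ ^ 10 * l₂ ^ 4 * x ^ 3 - 1984824 * l₁ ^ 10 * l₂ ^ 2 * x ^ 4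
      - 6055074 * l₁ ^ 10 * x ^ 5 - 2856138 * l₁ ^ 9 * l₂ ^ 11
      + 11955330 * l₁ ^ 9 * l₂ ^ 7 * x ^ 2 - 9952470 * l₁ ^ 9 * l₂ ^ 5 * x ^ 3
      - 20834820 * l₁ ^ 9 * l₂ ^ 3 * x ^ 4 + 16963830 * l₁ ^ 9 * l₂ * x ^ 5
      - 397302 * l₁ ^ 8 * l₂ ^ 12 + 2412864 * l₁ ^ 8 * l₂ ^ 10 * x
      - 14464710 * l₁ ^ 8 * l₂ ^ 8 * x ^ 2 + 7461720 * l₁ ^ 8 * l₂ ^ 6 * x ^ 3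
      + 18606510 * l₁ ^ 8 * l₂ ^ 4 * x ^ 4 - 320760 * l₁ ^ 8 * l₂ ^ 2 * x ^ 5
      + 6963408 * l₁ ^ 8 * x ^ 6 + 1594734 * l₁ ^ 7 * l₂ ^ 13 + 2694780 * l₁ ^ 7 * l₂ ^ 11 * x
      - 11955330 * l₁ ^ 7 * l₂ ^ 9 * x ^ 2 + 40500810 * l₁ ^ 7 * l₂ ^ 5 * x ^ 4
      - 25121340 * l₁ ^ 7 * l₂ ^ 3 * x ^ 5 - 25985934 * l₁ ^ 7 * l₂ * x ^ 6
      + 561834 * l₁ ^ 6 * l₂ ^ 14 - 3942396 * l₁ ^ 6 * l₂ ^ 12 * x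
      + 8481618 * l₁ ^ 6 * l₂ ^ 10 * x ^ 2 + 7461720 * l₁ ^ 6 * l₂ ^ 8 * x ^ 3
      - 31711500 * l₁ ^ 6 * l₂ ^ 6 * x ^ 4 + 4906170 * l₁ ^ 6 * l₂ ^ 4 * x ^ 5
      - 1872072 * l₁ ^ 6 * l₂ ^ 2 * x ^ 6 + 10720674 * l₁ ^ 6 * x ^ 7
      - 357576 * l₁ ^ 5 * l₂ ^ 15 - 3261150 * l₁ ^ 5 * l₂ ^ 13 * x
      + 7781832 * l₁ ^ 5 * l₂ ^ 11 * x ^ 2 + 9952470 * l₁ ^ 5 * l₂ ^ 9 * x ^ 3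
      - 40500810 * l₁ ^ 5 * l₂ ^ 7 * x ^ 4 + 66130506 * l₁ ^ 5 * l₂ ^ 3 * x ^ 6
      - 13331952 * l₁ ^ 5 * l₂ * x ^ 7 - 296634 * l₁ ^ 4 * l₂ ^ 16
      + 1550250 * l₁ ^ 4 * l₂ ^ 14 * x + 101628 * l₁ ^ 4 * l₂ ^ 12 * x ^ 2
      - 11390058 * l₁ ^ 4 * l₂ ^ 10 * x ^ 3 + 18606510 * l₁ ^ 4 * l₂ ^ 8 * x ^ 4
      + 4906170 * l₁ ^ 4 * l₂ ^ 6 * x ^ 5 - 8223120 * l₁ ^ 4 * l₂ ^ 4 * x ^ 6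
      - 7151490 * l₁ ^ 4 * l₂ ^ 2 * x ^ 7 - 18324873 * l₁ ^ 4 * x ^ 8
      - 57306 * l₁ ^ 3 * l₂ ^ 17 + 1579392 * l₁ ^ 3 * l₂ ^ 15 * x
      - 1571454 * l₁ ^ 3 * l₂ ^ 13 * x ^ 2 - 11904732 * l₁ ^ 3 * l₂ ^ 11 * x ^ 3
      + 20834820 * l₁ ^ 3 * l₂ ^ 9 * x ^ 4 + 25121340 * l₁ ^ 3 * l₂ ^ 7 * x ^ 5
      - 66130506 * l₁ ^ 3 * l₂ ^ 5 * x ^ 6 + 32909976 * l₁ ^ 3 * l₂ * x ^ 8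
      + 39182 * l₁ ^ 2 * l₂ ^ 18 + 27180 * l₁ ^ 2 * l₂ ^ 16 * x
      - 1269378 * l₁ ^ 2 * l₂ ^ 14 * x ^ 2 + 2898180 * l₁ ^ 2 * l₂ ^ 12 * x ^ 3
      - 1984824 * l₁ ^ 2 * l₂ ^ 10 * x ^ 4 - 320760 * l₁ ^ 2 * l₂ ^ 8 * x ^ 5
      - 1872072 * l₁ ^ 2 * l₂ ^ 6 * x ^ 6 - 7151490 * l₁ ^ 2 * l₂ ^ 4 * x ^ 7
      + 28146690 * l₁ ^ 2 * l₂ ^ 2 * x ^ 8 - 5038848 * l₁ ^ 2 * x ^ 9 + 27222 * l₁ * l₂ ^ 19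
      - 198468 * l₁ * l₂ ^ 17 * x - 680832 * l₁ * l₂ ^ 15 * x ^ 2
      + 4982310 * l₁ * l₂ ^ 13 * x ^ 3 - 3697002 * l₁ * l₂ ^ 11 * x ^ 4
      - 16963830 * l₁ * l₂ ^ 9 * x ^ 5 + 25985934 * l₁ * l₂ ^ 7 * x ^ 6
      + 13331952 * l₁ * l₂ ^ 5 * x ^ 7 - 32909976 * l₁ * l₂ ^ 3 * x ^ 8 + 4691 * l₂ ^ 20
      - 37050 * l₂ ^ 18 * x - 143721 * l₂ ^ 16 * x ^ 2 + 1141614 * l₂ ^ 14 * x ^ 3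
      - 466560 * l₂ ^ 12 * x ^ 4 - 6055074 * l₂ ^ 10 * x ^ 5 + 6963408 * l₂ ^ 8 * x ^ 6
      + 10720674 * l₂ ^ 6 * x ^ 7 - 18324873 * l₂ ^ 4 * x ^ 8 - 5038848 * l₂ ^ 2 * x ^ 9
      + 15116544 * x ^ 10) * hpsi

/-- The `j`-invariant relation for a curve with a 3-torsion point (`w = 4 f(x₀)`). -/
theorem j3_cert (x A B : F) (hpsi : 3 * x ^ 4 + 6 * A * x ^ 2 + 12 * B * x - A ^ 2 = 0) :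
    (-48 * A) ^ 3 * (4 * (x ^ 3 + A * x + B)) ^ 6 =
      (-16 * (4 * A ^ 3 + 27 * B ^ 2) + 27 * (4 * (x ^ 3 + A * x + B)) ^ 2) *
        (-16 * (4 * A ^ 3 + 27 * B ^ 2) + 3 * (4 * (x ^ 3 + A * x + B)) ^ 2) ^ 3 := by
  linear_combination (1 / 1 : F) *
    (-15925248 * x ^ 20 - 95551488 * x ^ 18 * A - 63700992 * x ^ 17 * B - 260112384 * x ^ 16 * A ^ 2
      - 382205952 * x ^ 15 * A * B - 488374272 * x ^ 14 * A ^ 3 + 254803968 * x ^ 14 * B ^ 2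
      - 891813888 * x ^ 13 * A ^ 2 * B - 734330880 * x ^ 12 * A ^ 4
      + 1019215872 * x ^ 12 * A * B ^ 2 - 1358954496 * x ^ 11 * A ^ 3 * B
      + 764411904 * x ^ 11 * B ^ 3 - 859963392 * x ^ 10 * A ^ 5
      + 1613758464 * x ^ 10 * A ^ 2 * B ^ 2 - 1649147904 * x ^ 9 * A ^ 4 * B
      + 3312451584 * x ^ 9 * A * B ^ 3 - 763822080 * x ^ 8 * A ^ 6 - 1783627776 * x ^ 8 * B ^ 4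
      - 1486356480 * x ^ 7 * A ^ 5 * B + 5011144704 * x ^ 7 * A ^ 2 * B ^ 3
      - 537919488 * x ^ 6 * A ^ 7 - 3057647616 * x ^ 6 * A ^ 4 * B ^ 2
      - 4586471424 * x ^ 6 * A * B ^ 4 - 887095296 * x ^ 5 * A ^ 6 * B
      + 2123366400 * x ^ 5 * A ^ 3 * B ^ 3 - 2038431744 * x ^ 5 * B ^ 5
      - 270532608 * x ^ 4 * A ^ 8 - 3227516928 * x ^ 4 * A ^ 5 * B ^ 2
      - 3822059520 * x ^ 4 * A ^ 2 * B ^ 4 - 377487360 * x ^ 3 * A ^ 7 * B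
      - 1811939328 * x ^ 3 * A ^ 4 * B ^ 3 - 5096079360 * x ^ 3 * A * B ^ 5
      - 50331648 * x ^ 2 * A ^ 9 - 754974720 * x ^ 2 * A ^ 6 * B ^ 2
      + 679477248 * x ^ 2 * A ^ 3 * B ^ 4 + 4076863488 * x ^ 2 * B ^ 6
      - 100663296 * x * A ^ 8 * B - 1358954496 * x * A ^ 5 * B ^ 3
      - 2717908992 * x * A ^ 2 * B ^ 5 + 16777216 * A ^ 10 + 301989888 * A ^ 7 * B ^ 2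
      + 1811939328 * A ^ 4 * B ^ 4 + 4076863488 * A * B ^ 6) * hpsi

end Fermat.Agent.S51
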