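import Mathlib
import Fermat.Prelude.Def_FLTPrelim_GaloisRep
import Fermat.Agent.S51.Coords
import Fermat.Agent.S51.GalAct
import Fermat.Agent.S51.Cert
import Fermat.Agent.S51.Tors3
import Fermat.Agent.S51.Tors5

set_option autoImplicit false

namespace Fermat.Agent.S51

open WeierstrassCurve WeierstrassCurve.Affine



local notation "Qbar" => AlgebraicClosure ℚ

lemma eq_zero_of_three_of_five {G : Type*} [AddCommGroup G] (P : G) (h3 : 3 • P = 0)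
    (h5 : 5 • P = 0) : P = 0 := by
  have h6 : 6 • P = 0 := by
    have : 6 • P = 2 • (3 • P) := by rw [← mul_nsmul]
    rw [this, h3, nsmul_zero]
  have h65 : 6 • P = 5 • P + P := succ_nsmul P 5
  rw [h6, h5, zero_add] at h65
  exact h65.symm

lemma px_ne_of_three_of_five {F : Type*} [Field F] [CharZero F] [DecidableEq F] {W : Affine F}
    {P Q : W.Point} (hP0 : P ≠ 0) (hP3 : 3 • P = 0) (hQ0 : Q ≠ 0) (hQ5 : 5 • Q = 0) :
    px P ≠ px Q := by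
  intro h
  rcases eq_or_eq_neg_of_px_eq hP0 hQ0 h with h1 | h1
  · subst h1
    exact hP0 (eq_zero_of_three_of_five P hP3 hQ5)
  · have h5 : 5 • P = 0 := by rw [h1, neg_nsmul, hQ5, neg_zero]
    exact hP0 (eq_zero_of_three_of_five P hP3 h5)

theorem modular_relation (E : Affine ℚ) (hΔ : E.Δ ≠ 0)
    (x₀ s p : ℚ) (P Q : (E⁄Qbar).Point)
    (hP0 : P ≠ 0) (hP3 : 3 • P = 0) (hPx : px P = algebraMap ℚ Qbar x₀)
    (hQ0 : Q ≠ 0) (hQ5 : 5 • Q = 0) (hQs : px Q + px (2 • Q) = algebraMap ℚ Qbar s)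
    (hQp : px Q * px (2 • Q) = algebraMap ℚ Qbar p) :
    ∃ f t : ℚ, f ≠ 0 ∧ t ≠ 0 ∧ t ^ 2 * (f - 1) + 5 * t * f ^ 3 + f ^ 5 * (f + 9) = 0 ∧
      E.c₄ ^ 3 * t = (t + 27) * (t + 3) ^ 3 * E.Δ := by
  have hφinj : Function.Injective (algebraMap ℚ Qbar) := (algebraMap ℚ Qbar).injective
  have hAbar : cA (E⁄Qbar) = algebraMap ℚ Qbar (cA E) := cA_baseChange E
  have hBbar : cB (E⁄Qbar) = algebraMap ℚ Qbar (cB E) := cB_baseChange E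
  -- 3-torsion data
  obtain ⟨hpe, hpsi⟩ := psi3_of_three_nsmul hP0 hP3
  rw [hAbar, hBbar, hPx] at hpsi
  simp only [psi3] at hpsi
  have hpsiQ : 3 * x₀ ^ 4 + 6 * cA E * x₀ ^ 2 + 12 * cB E * x₀ - cA E ^ 2 = 0 := by
    apply hφinj
    simpa using hpsi
  have hwbar : algebraMap ℚ Qbar (4 * (x₀ ^ 3 + cA E * x₀ + cB E)) = pe P ^ 2 := by
    rw [pe_sq hP0, hAbar, hBbar, hPx]
    simp
  have hw0 : 4 * (x₀ ^ 3 + cA E * x₀ + cB E) ≠ 0 := by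
    intro h0
    rw [h0, map_zero] at hwbar
    exact hpe ((pow_eq_zero_iff (two_ne_zero)).mp hwbar.symm)
  -- 5-torsion data
  have h2Q0 : 2 • Q ≠ 0 := by
    intro h0
    apply hQ0
    have h4 : 4 • Q = 0 := by
      have : 4 • Q = 2 • (2 • Q) := by rw [← mul_nsmul]
      rw [this, h0, nsmul_zero]
    have h54 : 5 • Q = 4 • Q + Q := succ_nsmul Q 4
    rw [hQ5, h4, zero_add] at h54
    exact h54.symm
  have h2Q5 : 5 • (2 • Q) = 0 := by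
    rw [← mul_nsmul, mul_comm, mul_nsmul, hQ5, nsmul_zero]
  have hne1 : px P ≠ px Q := px_ne_of_three_of_five hP0 hP3 hQ0 hQ5
  have hne2 : px P ≠ px (2 • Q) := px_ne_of_three_of_five hP0 hP3 h2Q0 h2Q5
  obtain ⟨l₁, l₂, hl, hα, hβ, hAl, hBl⟩ := five_torsion_param hQ0 hQ5
  rw [hAbar] at hAl hBl
  rw [hBbar] at hBl
  -- D, K, w as rational numbers
  obtain ⟨D, hDdef⟩ : ∃ D : ℚ, D = s ^ 2 - 4 * p := ⟨_, rfl⟩
  obtain ⟨K, hKdef⟩ : ∃ K : ℚ, K = x₀ ^ 2 - s * x₀ + p := ⟨_, rfl⟩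
  obtain ⟨w, hwdef⟩ : ∃ w : ℚ, w = 4 * (x₀ ^ 3 + cA E * x₀ + cB E) := ⟨_, rfl⟩
  rw [← hwdef] at hwbar hw0
  -- their images in Qbar
  obtain ⟨δ, hδ⟩ : ∃ δ : Qbar, δ = l₂ ^ 2 - l₁ ^ 2 := ⟨_, rfl⟩
  obtain ⟨S, hS⟩ : ∃ S : Qbar, S = 4 * (l₁ * l₂) + 11 * (l₂ ^ 2 - l₁ ^ 2) := ⟨_, rfl⟩
  obtain ⟨Kb, hKb⟩ : ∃ Kb : Qbar, Kb = (algebraMap ℚ Qbar x₀ - (2 * l₁ ^ 2 - l₂ ^ 2) / 3) *
        (algebraMap ℚ Qbar x₀ - (2 * l₂ ^ 2 - l₁ ^ 2) / 3) := ⟨_, rfl⟩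
  obtain ⟨wb, hwb⟩ : ∃ wb : Qbar, wb = 4 * (algebraMap ℚ Qbar x₀ ^ 3 +
        algebraMap ℚ Qbar (cA E) * algebraMap ℚ Qbar x₀ + algebraMap ℚ Qbar (cB E)) := ⟨_, rfl⟩
  have hDbar : algebraMap ℚ Qbar D = δ ^ 2 := by
    rw [hDdef, hδ]
    simp only [map_sub, map_pow, map_mul, map_ofNat, ← hQs, ← hQp, hα, hβ]
    ring
  have hKbar : algebraMap ℚ Qbar K = Kb := by
    rw [hKdef, hKb]
    simp only [map_sub, map_add, map_pow, map_mul, ← hQs, ← hQp, hα, hβ]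
    ring
  have hD0 : D ≠ 0 := by
    intro h0
    rw [h0, map_zero, hδ] at hDbar
    have : l₂ ^ 2 - l₁ ^ 2 = 0 := (pow_eq_zero_iff (two_ne_zero)).mp hDbar.symm
    exact hl (sub_eq_zero.mp this)
  have hK0 : K ≠ 0 := by
    intro h0
    rw [h0, map_zero, hKb] at hKbar
    rcases mul_eq_zero.mp hKbar.symm with h1 | h1
    · exact hne1 (by rw [hPx, hα]; exact sub_eq_zero.mp h1)
    · exact hne2 (by rw [hPx, hβ]; exact sub_eq_zero.mp h1)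
  -- discriminant
  have hΔAB : E.Δ = -16 * (4 * cA E ^ 3 + 27 * cB E ^ 2) := by
    have := E.c_relation
    simp only [cA, cB]
    linear_combination (1 / 1728 : ℚ) * this
  have hΔbar : algebraMap ℚ Qbar E.Δ = -(δ ^ 5 * S) := by
    rw [hΔAB, hδ, hS, ← delta_param l₁ l₂ _ _ hAl hBl]
    simp
  have hwbar' : algebraMap ℚ Qbar w = wb := by
    rw [hwdef, hwb]
    simp
  have hcert : S ^ 2 * Kb ^ 5 * (δ ^ 2 - Kb) - 5 * δ * S * Kb ^ 3 * wb ^ 2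
      + (δ ^ 2 + 9 * Kb) * wb ^ 4 = 0 := by
    rw [hS, hδ, hKb, hwb]
    exact m3_cert l₁ l₂ (algebraMap ℚ Qbar x₀) _ _ hAl hBl hpsi
  -- the main relation
  have hmain : E.Δ ^ 2 * K ^ 5 * (D - K) + 5 * E.Δ * D ^ 3 * K ^ 3 * w ^ 2
      + D ^ 5 * (D + 9 * K) * w ^ 4 = 0 := by
    apply hφinj
    simp only [map_add, map_mul, map_pow, map_sub, map_zero, map_ofNat]
    rw [hΔbar, hDbar, hKbar, hwbar']
    linear_combination (δ ^ 10) * hcert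
  have hc4 : E.c₄ = -48 * cA E := by
    simp only [cA]; ring
  have hj := j3_cert x₀ (cA E) (cB E) hpsiQ
  rw [← hwdef, ← hΔAB, ← hc4] at hj
  have hw2 : w ^ 2 ≠ 0 := pow_ne_zero 2 hw0
  obtain ⟨f, hfdef⟩ : ∃ f : ℚ, f = D / K := ⟨_, rfl⟩
  obtain ⟨t, htdef⟩ : ∃ t : ℚ, t = E.Δ / w ^ 2 := ⟨_, rfl⟩
  have hDf : D = f * K := by rw [hfdef]; field_simp
  have hΔt : E.Δ = t * w ^ 2 := by rw [htdef]; field_simp
  have hf0 : f ≠ 0 := by rw [hfdef]; exact div_ne_zero hD0 hK0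
  have ht0 : t ≠ 0 := by rw [htdef]; exact div_ne_zero hΔ hw2
  refine ⟨f, t, hf0, ht0, ?_, ?_⟩
  · have h1 : K ^ 6 * w ^ 4 * (t ^ 2 * (f - 1) + 5 * t * f ^ 3 + f ^ 5 * (f + 9)) = 0 := by
      rw [hΔt, hDf] at hmain
      linear_combination hmain
    have h2 : K ^ 6 * w ^ 4 ≠ 0 := mul_ne_zero (pow_ne_zero 6 hK0) (pow_ne_zero 4 hw0)
    exact (mul_eq_zero.mp h1).resolve_left h2
  · rw [hΔt] at hj
    rw [hΔt]
    have h1 : w ^ 6 * (E.c₄ ^ 3 * t - (t + 27) * (t + 3) ^ 3 * (t * w ^ 2)) = 0 := by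
      linear_combination (t : ℚ) * hj
    have h2 : w ^ 6 ≠ 0 := pow_ne_zero 6 hw0
    exact sub_eq_zero.mp ((mul_eq_zero.mp h1).resolve_left h2)

end Fermat.Agent.S51
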