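import Mathlib

set_option autoImplicit false

namespace Fermat.Agent.S51

namespace RankZero

theorem rz_sq_mod_four (a : ℤ) : a ^ 2 % 4 = 0 ∨ a ^ 2 % 4 = 1 := by
  have h : a % 4 = 0 ∨ a % 4 = 1 ∨ a % 4 = 2 ∨ a % 4 = 3 := by omega
  rcases h with h | h | h | h <;> simp [pow_two, Int.mul_emod, h]

theorem rz_sq_mod_eight (a : ℤ) : a ^ 2 % 8 = 0 ∨ a ^ 2 % 8 = 1 ∨ a ^ 2 % 8 = 4 := by
  have h : a % 8 = 0 ∨ a % 8 = 1 ∨ a % 8 = 2 ∨ a % 8 = 3 ∨ a % 8 = 4 ∨ a % 8 = 5 ∨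
      a % 8 = 6 ∨ a % 8 = 7 := by omega
  rcases h with h | h | h | h | h | h | h | h <;> simp [pow_two, Int.mul_emod, h]

theorem rz_sq_mod_eight_of_odd (a : ℤ) (ha : a % 2 = 1) : a ^ 2 % 8 = 1 := by
  have h : a % 8 = 1 ∨ a % 8 = 3 ∨ a % 8 = 5 ∨ a % 8 = 7 := by omega
  rcases h with h | h | h | h <;> simp [pow_two, Int.mul_emod, h]

theorem rz_sq_mod_four_of_odd (a : ℤ) (ha : a % 2 = 1) : a ^ 2 % 4 = 1 := by
  have h : a % 4 = 1 ∨ a % 4 = 3 := by omega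
  rcases h with h | h <;> simp [pow_two, Int.mul_emod, h]

theorem rz_four_dvd_of_sq_mod_eight (a : ℤ) (ha : a ^ 2 % 8 = 0) : a % 4 = 0 := by
  have h : a % 8 = 0 ∨ a % 8 = 1 ∨ a % 8 = 2 ∨ a % 8 = 3 ∨ a % 8 = 4 ∨ a % 8 = 5 ∨
      a % 8 = 6 ∨ a % 8 = 7 := by omega
  rcases h with h | h | h | h | h | h | h | h <;> simp [pow_two, Int.mul_emod, h] at ha <;> omega

theorem rz_four_dvd_of_sq_mod_sixteen (a : ℤ) (ha : a ^ 2 % 16 = 0) : a % 4 = 0 := by
  have h : a % 4 = 0 ∨ a % 4 = 1 ∨ a % 4 = 2 ∨ a % 4 = 3 := by omega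
  rcases h with h | h | h | h
  · exact h
  · obtain ⟨k, rfl⟩ : ∃ k, a = 4 * k + 1 := ⟨a / 4, by omega⟩
    ring_nf at ha; omega
  · obtain ⟨k, rfl⟩ : ∃ k, a = 4 * k + 2 := ⟨a / 4, by omega⟩
    ring_nf at ha; omega
  · obtain ⟨k, rfl⟩ : ∃ k, a = 4 * k + 3 := ⟨a / 4, by omega⟩
    ring_nf at ha; omega

theorem rz_sq_mod_three (a : ℤ) : a ^ 2 % 3 = 0 ∨ a ^ 2 % 3 = 1 := by
  have h : a % 3 = 0 ∨ a % 3 = 1 ∨ a % 3 = 2 := by omega
  rcases h with h | h | h <;> simp [pow_two, Int.mul_emod, h]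

theorem rz_sq_mod_three_of_ne (a : ℤ) (ha : a % 3 ≠ 0) : a ^ 2 % 3 = 1 := by
  have h : a % 3 = 1 ∨ a % 3 = 2 := by omega
  rcases h with h | h <;> simp [pow_two, Int.mul_emod, h]

theorem rz_not_isUnit_three : ¬ IsUnit (3 : ℤ) := by
  rw [Int.isUnit_iff]; omega

theorem rz_not_isUnit_two : ¬ IsUnit (2 : ℤ) := by
  rw [Int.isUnit_iff]; omega

/-- the 2-adic obstruction -/
theorem rz_not_dvd (u v w e : ℤ) (hc : IsCoprime u e) (hv : v ^ 2 = u ^ 2 + 80 * e ^ 2)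
    (hw : w ^ 2 = u ^ 2 + 81 * e ^ 2) : ¬ (2 * u * v * w ∣ u ^ 4 - 6480 * e ^ 4) := by
  intro hdvd
  rcases Int.emod_two_eq_zero_or_one e with he | he
  · -- e even, so u odd
    have hu : u % 2 = 1 := by
      rcases Int.emod_two_eq_zero_or_one u with hu | hu
      · exfalso
        have h2u : (2 : ℤ) ∣ u := Int.dvd_of_emod_eq_zero hu
        have h2e : (2 : ℤ) ∣ e := Int.dvd_of_emod_eq_zero he
        have := hc.isUnit_of_dvd' h2u h2e
        rw [Int.isUnit_iff] at this; omega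
      · exact hu
    have h2 : (2 : ℤ) ∣ u ^ 4 - 6480 * e ^ 4 :=
      dvd_trans ⟨u * v * w, by ring⟩ hdvd
    obtain ⟨k, rfl⟩ : ∃ k, u = 2 * k + 1 := ⟨u / 2, by omega⟩
    obtain ⟨c, hc2⟩ := h2
    ring_nf at hc2
    omega
  · -- e odd
    have he8 := rz_sq_mod_eight_of_odd e he
    have hu4 : u % 4 = 0 := by
      apply rz_four_dvd_of_sq_mod_eight
      rcases rz_sq_mod_eight u with h | h | h <;> rcases rz_sq_mod_eight w with h' | h' | h' <;> omega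
    have hv4 : v % 4 = 0 := by
      apply rz_four_dvd_of_sq_mod_sixteen
      obtain ⟨k, rfl⟩ : ∃ k, u = 4 * k := ⟨u / 4, by omega⟩
      rw [hv]; ring_nf; omega
    obtain ⟨k, rfl⟩ : ∃ k, u = 4 * k := ⟨u / 4, by omega⟩
    obtain ⟨l, rfl⟩ : ∃ l, v = 4 * l := ⟨v / 4, by omega⟩
    obtain ⟨j, rfl⟩ : ∃ j, e = 2 * j + 1 := ⟨e / 2, by omega⟩
    have h32 : (32 : ℤ) ∣ (4 * k) ^ 4 - 6480 * (2 * j + 1) ^ 4 :=
      dvd_trans ⟨k * l * w, by ring⟩ hdvd
    obtain ⟨c, hc2⟩ := h32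
    ring_nf at hc2
    omega

/-- Core step 1: `m + 81 e^2` is a perfect square. -/
theorem rz_core1 (m e n : ℤ) (hc : IsCoprime m e) (hn : n ≠ 0)
    (h : n ^ 2 = m * (m + 80 * e ^ 2) * (m + 81 * e ^ 2)) :
    ∃ z : ℤ, m + 81 * e ^ 2 = z ^ 2 := by
  obtain ⟨B, hB⟩ : ∃ B, B = m + 80 * e ^ 2 := ⟨_, rfl⟩
  obtain ⟨C, hC⟩ : ∃ C, C = m + 81 * e ^ 2 := ⟨_, rfl⟩
  rw [← hB, ← hC] at h
  rw [← hC]
  have he2 : 0 ≤ e ^ 2 := sq_nonneg e
  have hCpos : 0 < C := by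
    by_contra hle'
    have hle : C ≤ 0 := not_lt.mp hle'
    have hm : m ≤ 0 := by nlinarith
    have hBle : B ≤ 0 := by nlinarith
    have h1 : 0 ≤ m * B := mul_nonneg_of_nonpos_of_nonpos hm hBle
    have h2 : m * B * C ≤ 0 := mul_nonpos_of_nonneg_of_nonpos h1 hle
    have h3 : 0 < n ^ 2 := by positivity
    linarith
  have hBe : IsCoprime B e := by
    rw [hB]
    have : IsCoprime (m + e * (80 * e)) e := hc.add_mul_left_left (80 * e)
    convert this using 1; ring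
  have hBC : IsCoprime B C := by
    have h1 : IsCoprime B (e ^ 2) := hBe.pow_right
    have h2 : IsCoprime B (e ^ 2 + B * 1) := h1.add_mul_left_right 1
    convert h2 using 1; rw [hC, hB]; ring
  have hg0 : 0 < Int.gcd m C := Int.gcd_pos_of_ne_zero_right _ hCpos.ne'
  obtain ⟨a, c, hac, hma, hCc⟩ := Int.exists_gcd_one hg0
  obtain ⟨G, hG⟩ : ∃ G : ℕ, G = Int.gcd m C := ⟨_, rfl⟩
  rw [← hG] at hma hCc hg0
  have hGpos : (0 : ℤ) < G := by exact_mod_cast hg0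
  have hac' : IsCoprime a c := Int.isCoprime_iff_gcd_eq_one.mpr hac
  have hGm : (G : ℤ) ∣ m := ⟨a, by rw [hma]; ring⟩
  have hGC : (G : ℤ) ∣ C := ⟨c, by rw [hCc]; ring⟩
  have hGe : IsCoprime (G : ℤ) e := IsCoprime.of_isCoprime_of_dvd_left hc hGm
  have hG81 : (G : ℤ) ∣ 81 := by
    have h1 : (G : ℤ) ∣ 81 * e ^ 2 := by
      have : (81 : ℤ) * e ^ 2 = C - m := by rw [hC]; ring
      rw [this]; exact dvd_sub hGC hGm
    exact (hGe.pow_right (n := 2)).dvd_of_dvd_mul_right h1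
  have hG81' : G ∣ 81 := by exact_mod_cast hG81
  have hGle : G ≤ 81 := Nat.le_of_dvd (by norm_num) hG81'
  have hcpos : 0 < c := by
    by_contra hle'
    have hle : c ≤ 0 := not_lt.mp hle'
    have : c * (G : ℤ) ≤ 0 := mul_nonpos_of_nonpos_of_nonneg hle hGpos.le
    linarith
  have hcB : IsCoprime c B :=
    IsCoprime.of_isCoprime_of_dvd_left hBC.symm ⟨(G : ℤ), hCc⟩
  have hcaB : IsCoprime c (a * B) := IsCoprime.mul_right hac'.symm hcB
  have hn2 : n ^ 2 = (G : ℤ) ^ 2 * (c * (a * B)) := by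
    rw [h]; rw [hma, hCc]; ring
  have hGn : (G : ℤ) ∣ n := by
    have : (G : ℤ) ^ 2 ∣ n ^ 2 := ⟨_, hn2⟩
    exact (Int.pow_dvd_pow_iff two_ne_zero).mp this
  obtain ⟨n', rfl⟩ := hGn
  have hn'2 : c * (a * B) = n' ^ 2 := by
    have hG2 : (G : ℤ) ^ 2 ≠ 0 := by positivity
    have : (G : ℤ) ^ 2 * (n' ^ 2) = (G : ℤ) ^ 2 * (c * (a * B)) := by rw [← hn2]; ring
    exact (mul_left_cancel₀ hG2 this).symm
  obtain ⟨z0, hz0 | hz0⟩ := Int.sq_of_isCoprime hcaB hn'2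
  swap
  · exfalso
    have : 0 ≤ z0 ^ 2 := sq_nonneg z0
    linarith
  -- relation c - a
  have hrel : (c - a) * (G : ℤ) = 81 * e ^ 2 := by
    have : C - m = 81 * e ^ 2 := by rw [hC]; ring
    rw [← this, hma, hCc]; ring
  have hcases : G = 1 ∨ G = 3 ∨ G = 9 ∨ G = 27 ∨ G = 81 := by
    have hmem : G ∈ Nat.divisors 81 := Nat.mem_divisors.mpr ⟨hG81', by norm_num⟩
    have hd : Nat.divisors 81 = {1, 3, 9, 27, 81} := by decide
    rw [hd] at hmem
    simpa using hmem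
  -- the mod 3 contradiction, used for G = 3, 27
  have hmod3 : ∀ k : ℤ, c - a = 3 * k * e ^ 2 → (3 : ℤ) ∣ m → False := by
    intro k hk h3m
    have he3 : e % 3 ≠ 0 := by
      intro he0
      exact rz_not_isUnit_three (hc.isUnit_of_dvd' h3m (Int.dvd_of_emod_eq_zero he0))
    have hc3 : c % 3 ≠ 0 := by
      intro hc0
      have h3c : (3 : ℤ) ∣ c := Int.dvd_of_emod_eq_zero hc0
      have h3a : (3 : ℤ) ∣ a := by
        have : a = c - 3 * (k * e ^ 2) := by linarith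
        rw [this]; exact dvd_sub h3c ⟨_, rfl⟩
      exact rz_not_isUnit_three (hac'.isUnit_of_dvd' h3a h3c)
    have he1 := rz_sq_mod_three_of_ne e he3
    have hc1 := rz_sq_mod_three_of_ne c hc3
    have hX : (c ^ 2 * e ^ 2) % 3 = 1 := by
      rw [Int.mul_emod, hc1, he1]; rfl
    obtain ⟨m', rfl⟩ := h3m
    have ha : a = c - 3 * k * e ^ 2 := by linarith
    have key : n' ^ 2 = 80 * (c ^ 2 * e ^ 2) +
        3 * (c * (c - 3 * k * e ^ 2) * m' - 80 * c * k * e ^ 4) := by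
      rw [← hn'2, hB, ha]; ring
    rcases rz_sq_mod_three n' with h0 | h0 <;> omega
  rcases hcases with rfl | rfl | rfl | rfl | rfl
  · exact ⟨z0, by rw [hCc, hz0]; ring⟩
  · exfalso
    apply hmod3 9 _ hGm
    have : (c - a) * 3 = 81 * e ^ 2 := by exact_mod_cast hrel
    linarith
  · exact ⟨3 * z0, by rw [hCc, hz0]; push_cast; ring⟩
  · exfalso
    have h3m : (3 : ℤ) ∣ m := dvd_trans ⟨9, by norm_num⟩ hGm
    apply hmod3 1 _ h3m
    have : (c - a) * 27 = 81 * e ^ 2 := by exact_mod_cast hrel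
    linarith
  · exact ⟨9 * z0, by rw [hCc, hz0]; push_cast; ring⟩

/-- Core step 2: `m` is `±1` or `±5` times a square. -/
theorem rz_core2 (m e n z3 : ℤ) (hc : IsCoprime m e) (hn : n ≠ 0)
    (h : n ^ 2 = m * (m + 80 * e ^ 2) * (m + 81 * e ^ 2)) (hz : m + 81 * e ^ 2 = z3 ^ 2) :
    ∃ d z : ℤ, (d = 1 ∨ d = -1 ∨ d = 5 ∨ d = -5) ∧ d * m = z ^ 2 := by
  obtain ⟨B, hB⟩ : ∃ B, B = m + 80 * e ^ 2 := ⟨_, rfl⟩
  rw [← hB, hz] at h
  have hz3 : z3 ≠ 0 := by
    rintro rfl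
    apply hn
    have : n ^ 2 = 0 := by rw [h]; ring
    exact pow_eq_zero_iff (two_ne_zero) |>.mp this
  have hz3n : z3 ∣ n := by
    have : z3 ^ 2 ∣ n ^ 2 := ⟨m * B, by rw [h]; ring⟩
    exact (Int.pow_dvd_pow_iff two_ne_zero).mp this
  obtain ⟨k, rfl⟩ := hz3n
  have hk : m * B = k ^ 2 := by
    have hz2 : z3 ^ 2 ≠ 0 := pow_ne_zero 2 hz3
    have : z3 ^ 2 * (k ^ 2) = z3 ^ 2 * (m * B) := by rw [← mul_pow, h]; ring
    exact (mul_left_cancel₀ hz2 this).symm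
  have hk0 : k ≠ 0 := by
    rintro rfl; simp at hn
  have hm0 : m ≠ 0 := by
    rintro rfl
    apply hk0
    have : k ^ 2 = 0 := by rw [← hk]; ring
    exact pow_eq_zero_iff (two_ne_zero) |>.mp this
  have hg0 : 0 < Int.gcd m B := Int.gcd_pos_of_ne_zero_left _ hm0
  obtain ⟨a, b, hab, hma, hBb⟩ := Int.exists_gcd_one hg0
  obtain ⟨H, hH⟩ : ∃ H : ℕ, H = Int.gcd m B := ⟨_, rfl⟩
  rw [← hH] at hma hBb hg0
  have hHpos : (0 : ℤ) < H := by exact_mod_cast hg0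
  have hab' : IsCoprime a b := Int.isCoprime_iff_gcd_eq_one.mpr hab
  have hHm : (H : ℤ) ∣ m := ⟨a, by rw [hma]; ring⟩
  have hHB : (H : ℤ) ∣ B := ⟨b, by rw [hBb]; ring⟩
  have hHe : IsCoprime (H : ℤ) e := IsCoprime.of_isCoprime_of_dvd_left hc hHm
  have hH80 : (H : ℤ) ∣ 80 := by
    have h1 : (H : ℤ) ∣ 80 * e ^ 2 := by
      have : (80 : ℤ) * e ^ 2 = B - m := by rw [hB]; ring
      rw [this]; exact dvd_sub hHB hHm
    exact (hHe.pow_right (n := 2)).dvd_of_dvd_mul_right h1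
  have hH80' : H ∣ 80 := by exact_mod_cast hH80
  have hk2 : k ^ 2 = (H : ℤ) ^ 2 * (a * b) := by
    rw [← hk]; rw [hma, hBb]; ring
  have hHk : (H : ℤ) ∣ k := by
    have : (H : ℤ) ^ 2 ∣ k ^ 2 := ⟨_, hk2⟩
    exact (Int.pow_dvd_pow_iff two_ne_zero).mp this
  obtain ⟨k', rfl⟩ := hHk
  have hk'2 : a * b = k' ^ 2 := by
    have hH2 : (H : ℤ) ^ 2 ≠ 0 := by positivity
    have : (H : ℤ) ^ 2 * (k' ^ 2) = (H : ℤ) ^ 2 * (a * b) := by rw [← hk2]; ring
    exact (mul_left_cancel₀ hH2 this).symm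
  have hk'0 : k' ≠ 0 := by
    rintro rfl; simp at hk0
  have hrel : (b - a) * (H : ℤ) = 80 * e ^ 2 := by
    have : B - m = 80 * e ^ 2 := by rw [hB]; ring
    rw [← this, hma, hBb]; ring
  have hcases : H = 1 ∨ H = 2 ∨ H = 4 ∨ H = 5 ∨ H = 8 ∨ H = 10 ∨ H = 16 ∨ H = 20 ∨
      H = 40 ∨ H = 80 := by
    have hmem : H ∈ Nat.divisors 80 := Nat.mem_divisors.mpr ⟨hH80', by norm_num⟩
    have hd : Nat.divisors 80 = {1, 2, 4, 5, 8, 10, 16, 20, 40, 80} := by decide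
    rw [hd] at hmem
    simpa using hmem
  obtain ⟨s, hs⟩ := Int.sq_of_isCoprime hab' hk'2
  obtain ⟨t, ht⟩ := Int.sq_of_isCoprime hab'.symm (by rw [mul_comm]; exact hk'2 : b * a = k' ^ 2)
  -- consequences of `m` even
  have heven : (2 : ℤ) ∣ m → e % 2 = 1 ∧ m % 8 = 0 ∧ B % 8 = 0 := by
    intro h2m
    have he : e % 2 = 1 := by
      rcases Int.emod_two_eq_zero_or_one e with he | he
      · exact absurd (hc.isUnit_of_dvd' h2m (Int.dvd_of_emod_eq_zero he)) rz_not_isUnit_two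
      · exact he
    have he8 := rz_sq_mod_eight_of_odd e he
    obtain ⟨m', rfl⟩ := h2m
    refine ⟨he, ?_, ?_⟩
    · rcases rz_sq_mod_eight z3 with h' | h' | h' <;> omega
    · rcases rz_sq_mod_eight z3 with h' | h' | h' <;> omega
  -- same sign
  have hsign : (a = s ^ 2 ∧ b = t ^ 2) ∨ (a = -s ^ 2 ∧ b = -t ^ 2) := by
    rcases hs with hs | hs <;> rcases ht with ht | ht
    · exact Or.inl ⟨hs, ht⟩
    · exfalso
      have : k' ^ 2 + (s * t) ^ 2 = 0 := by rw [← hk'2, hs, ht]; ring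
      have h1 : 0 < k' ^ 2 := by positivity
      have h2 : 0 ≤ (s * t) ^ 2 := sq_nonneg _
      linarith
    · exfalso
      have : k' ^ 2 + (s * t) ^ 2 = 0 := by rw [← hk'2, hs, ht]; ring
      have h1 : 0 < k' ^ 2 := by positivity
      have h2 : 0 ≤ (s * t) ^ 2 := sq_nonneg _
      linarith
    · exact Or.inr ⟨hs, ht⟩
  -- the mod 4 contradiction for H = 8, 40
  have hmod4 : ∀ j : ℤ, j % 4 = 2 → b - a = j * e ^ 2 → e % 2 = 1 → False := by
    intro j hj hba he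
    have he4 : e ^ 2 % 4 = 1 := by
      have := rz_sq_mod_eight_of_odd e he; omega
    obtain ⟨j', rfl⟩ : ∃ j', j = 4 * j' + 2 := ⟨j / 4, by omega⟩
    have hba' : b - a = 4 * (j' * e ^ 2) + 2 * e ^ 2 := by rw [hba]; ring
    rcases hsign with ⟨ha, hb⟩ | ⟨ha, hb⟩ <;>
    rcases rz_sq_mod_four s with h1 | h1 <;> rcases rz_sq_mod_four t with h2 | h2 <;> omega
  -- the coprimality contradiction for H = 2, 10
  have hcop : a % 2 = 0 → b % 2 = 0 → False := by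
    intro ha hb
    exact rz_not_isUnit_two
      (hab'.isUnit_of_dvd' (Int.dvd_of_emod_eq_zero ha) (Int.dvd_of_emod_eq_zero hb))
  rcases hcases with rfl | rfl | rfl | rfl | rfl | rfl | rfl | rfl | rfl | rfl
  · -- H = 1
    rcases hs with hs | hs
    · exact ⟨1, s, Or.inl rfl, by rw [hma, hs]; push_cast; ring⟩
    · exact ⟨-1, s, Or.inr (Or.inl rfl), by rw [hma, hs]; push_cast; ring⟩
  · -- H = 2
    exfalso
    have h2m : (2 : ℤ) ∣ m := ⟨a, by rw [hma]; push_cast; ring⟩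
    obtain ⟨he, hm8, hB8⟩ := heven h2m
    push_cast at hma hBb
    exact hcop (by omega) (by omega)
  · -- H = 4
    rcases hs with hs | hs
    · exact ⟨1, 2 * s, Or.inl rfl, by rw [hma, hs]; push_cast; ring⟩
    · exact ⟨-1, 2 * s, Or.inr (Or.inl rfl), by rw [hma, hs]; push_cast; ring⟩
  · -- H = 5
    rcases hs with hs | hs
    · exact ⟨5, 5 * s, Or.inr (Or.inr (Or.inl rfl)), by rw [hma, hs]; push_cast; ring⟩
    · exact ⟨-5, 5 * s, Or.inr (Or.inr (Or.inr rfl)), by rw [hma, hs]; push_cast; ring⟩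
  · -- H = 8
    exfalso
    have h2m : (2 : ℤ) ∣ m := ⟨4 * a, by rw [hma]; push_cast; ring⟩
    obtain ⟨he, hm8, hB8⟩ := heven h2m
    push_cast at hrel
    exact hmod4 10 (by norm_num) (by linarith) he
  · -- H = 10
    exfalso
    have h2m : (2 : ℤ) ∣ m := ⟨5 * a, by rw [hma]; push_cast; ring⟩
    obtain ⟨he, hm8, hB8⟩ := heven h2m
    push_cast at hma hBb
    exact hcop (by omega) (by omega)
  · -- H = 16
    rcases hs with hs | hs
    · exact ⟨1, 4 * s, Or.inl rfl, by rw [hma, hs]; push_cast; ring⟩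
    · exact ⟨-1, 4 * s, Or.inr (Or.inl rfl), by rw [hma, hs]; push_cast; ring⟩
  · -- H = 20
    rcases hs with hs | hs
    · exact ⟨5, 10 * s, Or.inr (Or.inr (Or.inl rfl)), by rw [hma, hs]; push_cast; ring⟩
    · exact ⟨-5, 10 * s, Or.inr (Or.inr (Or.inr rfl)), by rw [hma, hs]; push_cast; ring⟩
  · -- H = 40
    exfalso
    have h2m : (2 : ℤ) ∣ m := ⟨20 * a, by rw [hma]; push_cast; ring⟩
    obtain ⟨he, hm8, hB8⟩ := heven h2m
    push_cast at hrel
    exact hmod4 2 (by norm_num) (by linarith) he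
  · -- H = 80
    rcases hs with hs | hs
    · exact ⟨5, 20 * s, Or.inr (Or.inr (Or.inl rfl)), by rw [hma, hs]; push_cast; ring⟩
    · exact ⟨-5, 20 * s, Or.inr (Or.inr (Or.inr rfl)), by rw [hma, hs]; push_cast; ring⟩

/-- all three of `t`, `t + 80`, `t + 81` are nonzero rational squares -/
def rzGood (t : ℚ) : Prop :=
  ∃ r1 r2 r3 : ℚ, r1 ≠ 0 ∧ t = r1 ^ 2 ∧ t + 80 = r2 ^ 2 ∧ t + 81 = r3 ^ 2

/-- the `x`-coordinate of the double of a point -/
def rzD (t : ℚ) : ℚ := (t ^ 2 - 6480) ^ 2 / (4 * t * (t + 80) * (t + 81))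

theorem rz_halve (x : ℚ) (hx : rzGood x) :
    ∃ x2 y2 : ℚ, y2 ≠ 0 ∧ y2 ^ 2 = x2 * (x2 + 80) * (x2 + 81) ∧ rzD x2 = x := by
  obtain ⟨r1, r2, r3, hr1, h0, h80, h81⟩ := hx
  have hp : r2 ^ 2 - r1 ^ 2 = 80 := by linear_combination h0 - h80
  have hq : r3 ^ 2 - r1 ^ 2 = 81 := by linear_combination h0 - h81
  have h12 : r1 + r2 ≠ 0 := by
    intro h
    have : r2 = -r1 := by linear_combination h
    rw [this] at hp; ring_nf at hp; norm_num at hp
  have h13 : r1 + r3 ≠ 0 := by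
    intro h
    have : r3 = -r1 := by linear_combination h
    rw [this] at hq; ring_nf at hq; norm_num at hq
  have h23 : r2 + r3 ≠ 0 := by
    intro h
    have : r3 = -r2 := by linear_combination h
    rw [this] at hq
    have : (80 : ℚ) = 81 := by linear_combination hq - hp
    norm_num at this
  refine ⟨(r1 + r2) * (r1 + r3), (r1 + r2) * (r1 + r3) * (r2 + r3), ?_, ?_, ?_⟩
  · exact mul_ne_zero (mul_ne_zero h12 h13) h23
  · have e80 : (r1 + r2) * (r1 + r3) + 80 = (r1 + r2) * (r2 + r3) := by linear_combination -hp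
    have e81 : (r1 + r2) * (r1 + r3) + 81 = (r1 + r3) * (r2 + r3) := by linear_combination -hq
    rw [e80, e81]; ring
  · have e80 : (r1 + r2) * (r1 + r3) + 80 = (r1 + r2) * (r2 + r3) := by linear_combination -hp
    have e81 : (r1 + r2) * (r1 + r3) + 81 = (r1 + r3) * (r2 + r3) := by linear_combination -hq
    have key : ((r1 + r2) * (r1 + r3)) ^ 2 - 6480 = 2 * r1 * ((r1 + r2) * (r1 + r3) * (r2 + r3)) := by
      linear_combination (r3 ^ 2 - r1 ^ 2) * hp + 80 * hq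
    unfold rzD
    rw [e80, e81, key, h0]
    field_simp
    ring

theorem rz_den_lt (t : ℚ) (ht : rzGood t) : t.den < (rzD t).den := by
  obtain ⟨r1, r2, r3, hr1, h0, h80, h81⟩ := ht
  have hr2 : r2 ≠ 0 := by
    rintro rfl
    have : 0 ≤ r1 ^ 2 := sq_nonneg r1
    linarith
  have hr3 : r3 ≠ 0 := by
    rintro rfl
    have : 0 ≤ r1 ^ 2 := sq_nonneg r1
    linarith
  -- denominators
  have hden2 : r2.den = r1.den := by
    have h1 : (r2 ^ 2).den = (r1 ^ 2).den := by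
      rw [← h80, ← h0]
      have := Rat.add_intCast_den t 80
      simp
    rw [Rat.den_pow, Rat.den_pow] at h1
    exact Nat.pow_left_injective (by norm_num : 2 ≠ 0) h1
  have hden3 : r3.den = r1.den := by
    have h1 : (r3 ^ 2).den = (r1 ^ 2).den := by
      rw [← h81, ← h0]
      have := Rat.add_intCast_den t 81
      simp
    rw [Rat.den_pow, Rat.den_pow] at h1
    exact Nat.pow_left_injective (by norm_num : 2 ≠ 0) h1
  obtain ⟨e, he⟩ : ∃ e : ℕ, e = r1.den := ⟨_, rfl⟩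
  obtain ⟨u, hu⟩ : ∃ u : ℤ, u = r1.num := ⟨_, rfl⟩
  obtain ⟨v, hv⟩ : ∃ v : ℤ, v = r2.num := ⟨_, rfl⟩
  obtain ⟨w, hw⟩ : ∃ w : ℤ, w = r3.num := ⟨_, rfl⟩
  have hepos : 0 < e := by rw [he]; exact r1.den_pos
  have heQ : (e : ℚ) ≠ 0 := by positivity
  have hr1e : r1 = (u : ℚ) / (e : ℚ) := by rw [hu, he]; exact (Rat.num_div_den r1).symm
  have hr2e : r2 = (v : ℚ) / (e : ℚ) := by rw [hv, he, ← hden2]; exact (Rat.num_div_den r2).symm
  have hr3e : r3 = (w : ℚ) / (e : ℚ) := by rw [hw, he, ← hden3]; exact (Rat.num_div_den r3).symm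
  have hu0 : u ≠ 0 := by
    rintro rfl; apply hr1; rw [hr1e]; simp
  have hv0 : v ≠ 0 := by
    rintro rfl; apply hr2; rw [hr2e]; simp
  have hw0 : w ≠ 0 := by
    rintro rfl; apply hr3; rw [hr3e]; simp
  have hcop : IsCoprime u (e : ℤ) := by
    rw [hu, he]
    exact Int.isCoprime_iff_gcd_eq_one.mpr (by simpa [Int.gcd] using r1.reduced)
  have hvv : v ^ 2 = u ^ 2 + 80 * (e : ℤ) ^ 2 := by
    have h1 : r2 ^ 2 = r1 ^ 2 + 80 := by rw [← h80, ← h0]
    rw [hr1e, hr2e] at h1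
    field_simp at h1
    have h2 : (v : ℚ) ^ 2 = (u : ℚ) ^ 2 + 80 * (e : ℚ) ^ 2 := by linear_combination h1
    exact_mod_cast h2
  have hww : w ^ 2 = u ^ 2 + 81 * (e : ℤ) ^ 2 := by
    have h1 : r3 ^ 2 = r1 ^ 2 + 81 := by rw [← h81, ← h0]
    rw [hr1e, hr3e] at h1
    field_simp at h1
    have h2 : (w : ℚ) ^ 2 = (u : ℚ) ^ 2 + 81 * (e : ℚ) ^ 2 := by linear_combination h1
    exact_mod_cast h2
  have hnd := rz_not_dvd u v w e hcop hvv hww
  -- ρ
  obtain ⟨ρ, hρ⟩ : ∃ ρ : ℚ, ρ = (t ^ 2 - 6480) / (2 * r1 * r2 * r3) := ⟨_, rfl⟩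
  have hD : rzD t = ρ ^ 2 := by
    unfold rzD
    rw [hρ, div_pow]
    congr 1
    rw [h80, h81, h0]
    ring
  have hρ' : ρ = ((u ^ 4 - 6480 * (e : ℤ) ^ 4 : ℤ) : ℚ) / ((2 * u * v * w * (e : ℤ) : ℤ) : ℚ) := by
    rw [hρ, h0, hr1e, hr2e, hr3e]
    push_cast
    field_simp
  have hcross : ρ.num * (2 * u * v * w * (e : ℤ)) = (u ^ 4 - 6480 * (e : ℤ) ^ 4) * (ρ.den : ℤ) := by
    have h1 : (ρ.num : ℚ) / (ρ.den : ℚ) =
        ((u ^ 4 - 6480 * (e : ℤ) ^ 4 : ℤ) : ℚ) / ((2 * u * v * w * (e : ℤ) : ℤ) : ℚ) :=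
      (Rat.num_div_den ρ).trans hρ'
    have hden : ((2 * u * v * w * (e : ℤ) : ℤ) : ℚ) ≠ 0 := by
      have : (2 * u * v * w * (e : ℤ) : ℤ) ≠ 0 := by
        have : (e : ℤ) ≠ 0 := by exact_mod_cast hepos.ne'
        positivity
      exact_mod_cast this
    have hρden : ((ρ.den : ℤ) : ℚ) ≠ 0 := by
      have := ρ.den_pos
      positivity
    rw [div_eq_div_iff (by exact_mod_cast hρden) hden] at h1
    exact_mod_cast h1
  have hcop2 : IsCoprime (e : ℤ) (u ^ 4 - 6480 * (e : ℤ) ^ 4) := by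
    have h1 : IsCoprime (u ^ 4) (e : ℤ) := hcop.pow_left
    have h2 : IsCoprime (u ^ 4 + (e : ℤ) * (-6480 * (e : ℤ) ^ 3)) (e : ℤ) :=
      h1.add_mul_left_left _
    have h3 : u ^ 4 + (e : ℤ) * (-6480 * (e : ℤ) ^ 3) = u ^ 4 - 6480 * (e : ℤ) ^ 4 := by ring
    rw [h3] at h2
    exact h2.symm
  have hdvd : (e : ℤ) ∣ (ρ.den : ℤ) := by
    apply hcop2.dvd_of_dvd_mul_left
    rw [← hcross]
    exact ⟨ρ.num * (2 * u * v * w), by ring⟩
  have hdvd' : e ∣ ρ.den := by exact_mod_cast hdvd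
  have hle : e ≤ ρ.den := Nat.le_of_dvd ρ.den_pos hdvd'
  have hne : e ≠ ρ.den := by
    intro heq
    apply hnd
    rw [← heq] at hcross
    have he0 : (e : ℤ) ≠ 0 := by exact_mod_cast hepos.ne'
    have h2 : (e : ℤ) * (ρ.num * (2 * u * v * w)) = (e : ℤ) * (u ^ 4 - 6480 * (e : ℤ) ^ 4) := by
      linear_combination hcross
    have h3 := mul_left_cancel₀ he0 h2
    exact ⟨ρ.num, by rw [← h3]; ring⟩
  have hlt : e < ρ.den := lt_of_le_of_ne hle hne
  rw [hD, Rat.den_pow, h0, Rat.den_pow, ← he]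
  exact Nat.pow_lt_pow_left hlt (by norm_num)

/-- integral form of a rational point with `y ≠ 0` -/
theorem rz_integral (x y : ℚ) (hy : y ≠ 0) (h : y ^ 2 = x * (x + 80) * (x + 81)) :
    ∃ m e n : ℤ, IsCoprime m e ∧ e ≠ 0 ∧ n ≠ 0 ∧
      n ^ 2 = m * (m + 80 * e ^ 2) * (m + 81 * e ^ 2) ∧ x = (m : ℚ) / (e : ℚ) ^ 2 := by
  obtain ⟨a, ha⟩ : ∃ a : ℤ, a = x.num := ⟨_, rfl⟩
  obtain ⟨b, hb⟩ : ∃ b : ℤ, b = (x.den : ℤ) := ⟨_, rfl⟩
  have hbpos : 0 < b := by rw [hb]; exact_mod_cast x.den_pos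
  have hbQ : (b : ℚ) ≠ 0 := by exact_mod_cast hbpos.ne'
  have hx : x = (a : ℚ) / (b : ℚ) := by
    rw [ha, hb]; exact_mod_cast (Rat.num_div_den x).symm
  have hcop : IsCoprime a b := by
    rw [ha, hb]
    exact Int.isCoprime_iff_gcd_eq_one.mpr (by simpa [Int.gcd] using x.reduced)
  -- the integer N
  have hN : ((b * (a * (a + 80 * b) * (a + 81 * b)) : ℤ) : ℚ) = (y * (b : ℚ) ^ 2) ^ 2 := by
    rw [mul_pow, h, hx]
    push_cast
    field_simp
  have hsq : IsSquare (b * (a * (a + 80 * b) * (a + 81 * b))) := by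
    rw [← Rat.isSquare_intCast_iff, hN]
    exact ⟨y * (b : ℚ) ^ 2, by ring⟩
  obtain ⟨n1, hn1⟩ := hsq
  have hn1' : b * (a * (a + 80 * b) * (a + 81 * b)) = n1 ^ 2 := by rw [hn1]; ring
  have hn10 : n1 ≠ 0 := by
    rintro rfl
    have h0 : ((b * (a * (a + 80 * b) * (a + 81 * b)) : ℤ) : ℚ) = 0 := by
      rw [hn1']; simp
    rw [hN] at h0
    have : y * (b : ℚ) ^ 2 = 0 := by simpa using h0
    rcases mul_eq_zero.mp this with h1 | h1
    · exact hy h1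
    · exact hbQ (by simpa using h1)
  have hcopP : IsCoprime b (a * (a + 80 * b) * (a + 81 * b)) := by
    have h1 : IsCoprime b a := hcop.symm
    have h2 : IsCoprime b (a + 80 * b) := by
      have : IsCoprime b (a + b * 80) := h1.add_mul_left_right 80
      convert this using 1; ring
    have h3 : IsCoprime b (a + 81 * b) := by
      have : IsCoprime b (a + b * 81) := h1.add_mul_left_right 81
      convert this using 1; ring
    exact (h1.mul_right h2).mul_right h3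
  obtain ⟨e, he | he⟩ := Int.sq_of_isCoprime hcopP hn1'
  swap
  · exfalso
    have : 0 ≤ e ^ 2 := sq_nonneg e
    linarith
  have he0 : e ≠ 0 := by
    rintro rfl
    rw [he] at hbpos; simp at hbpos
  have hcope : IsCoprime a e := by
    rw [he] at hcop
    exact (IsCoprime.pow_right_iff (by norm_num : 0 < 2)).mp hcop
  have hen1 : e ∣ n1 := by
    have : e ^ 2 ∣ n1 ^ 2 := ⟨a * (a + 80 * b) * (a + 81 * b), by rw [← hn1', he]⟩
    exact (Int.pow_dvd_pow_iff two_ne_zero).mp this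
  obtain ⟨n, rfl⟩ := hen1
  have hn0 : n ≠ 0 := by
    rintro rfl; simp at hn10
  refine ⟨a, e, n, hcope, he0, hn0, ?_, ?_⟩
  · have he2 : e ^ 2 ≠ 0 := pow_ne_zero 2 he0
    have : e ^ 2 * n ^ 2 = e ^ 2 * (a * (a + 80 * e ^ 2) * (a + 81 * e ^ 2)) := by
      rw [he] at hn1'
      linear_combination -hn1'
    exact mul_left_cancel₀ he2 this
  · rw [hx, he]; push_cast; ring

theorem rz_classify (x y : ℚ) (hy : y ≠ 0) (h : y ^ 2 = x * (x + 80) * (x + 81)) :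
    ∃ x', rzGood x' ∧ rzD x' = rzD x := by
  obtain ⟨m, e, n, hcop, he0, hn0, hcurve, hxm⟩ := rz_integral x y hy h
  obtain ⟨z3, hz3⟩ := rz_core1 m e n hcop hn0 hcurve
  obtain ⟨d, z, hd, hz⟩ := rz_core2 m e n z3 hcop hn0 hcurve hz3
  have heQ : (e : ℚ) ≠ 0 := by exact_mod_cast he0
  -- rational square roots
  obtain ⟨s3, hs3⟩ : ∃ s3 : ℚ, x + 81 = s3 ^ 2 := by
    refine ⟨(z3 : ℚ) / (e : ℚ), ?_⟩
    have : ((m + 81 * e ^ 2 : ℤ) : ℚ) = ((z3 ^ 2 : ℤ) : ℚ) := by rw [hz3]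
    push_cast at this
    rw [hxm, div_pow, ← this]
    field_simp
  obtain ⟨sd, hsd⟩ : ∃ sd : ℚ, (d : ℚ) * x = sd ^ 2 := by
    refine ⟨(z : ℚ) / (e : ℚ), ?_⟩
    have : ((d * m : ℤ) : ℚ) = ((z ^ 2 : ℤ) : ℚ) := by rw [hz]
    push_cast at this
    rw [hxm, div_pow, ← this]
    field_simp
  have hx0 : x ≠ 0 := by
    rintro rfl; apply hy; simpa using h
  have hx80 : x + 80 ≠ 0 := by
    intro h0; apply hy; rw [h0] at h; simpa using h
  have hx81 : x + 81 ≠ 0 := by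
    intro h0; apply hy; rw [h0] at h; simpa using h
  have hs30 : s3 ≠ 0 := by
    rintro rfl; apply hx81; rw [hs3]; ring
  have hd0 : (d : ℚ) ≠ 0 := by
    rcases hd with rfl | rfl | rfl | rfl <;> norm_num
  have hsd0 : sd ≠ 0 := by
    rintro rfl
    have : (d : ℚ) * x = 0 := by rw [hsd]; ring
    rcases mul_eq_zero.mp this with h1 | h1
    · exact hd0 h1
    · exact hx0 h1
  rcases hd with rfl | rfl | rfl | rfl
  · -- d = 1
    have hsd' : x = sd ^ 2 := by rw [← hsd]; push_cast; ring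
    refine ⟨x, ⟨sd, y / (sd * s3), s3, hsd0, hsd', ?_, hs3⟩, rfl⟩
    rw [div_pow, mul_pow, ← hsd', ← hs3, h]
    field_simp
  · -- d = -1
    have hsd' : -x = sd ^ 2 := by rw [← hsd]; push_cast; ring
    refine ⟨-81 * (x + 80) / (x + 81),
      ⟨9 * y / (sd * (x + 81)), sd / s3, 9 / s3, ?_, ?_, ?_, ?_⟩, ?_⟩
    · exact div_ne_zero (mul_ne_zero (by norm_num) hy) (mul_ne_zero hsd0 hx81)
    · rw [div_pow, mul_pow, mul_pow, ← hsd', h]
      field_simp
      ring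
    · rw [div_pow, ← hsd', ← hs3]
      field_simp
      ring
    · rw [div_pow, ← hs3]
      field_simp
      ring
    · have e80 : -81 * (x + 80) / (x + 81) + 80 = -x / (x + 81) := by field_simp; ring
      have e81 : -81 * (x + 80) / (x + 81) + 81 = 81 / (x + 81) := by field_simp; ring
      unfold rzD
      rw [e80, e81]
      field_simp
      ring
  · -- d = 5
    have hsd' : 5 * x = sd ^ 2 := by rw [← hsd]; push_cast; ring
    refine ⟨6480 / x,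
      ⟨180 / sd, 20 * s3 / sd, 9 * y / (x * s3), ?_, ?_, ?_, ?_⟩, ?_⟩
    · exact div_ne_zero (by norm_num) hsd0
    · rw [div_pow, ← hsd']
      field_simp
      norm_num
    · rw [div_pow, mul_pow, ← hsd', ← hs3]
      field_simp
      ring
    · rw [div_pow, mul_pow, mul_pow, ← hs3, h]
      field_simp
      ring
    · have e80 : 6480 / x + 80 = 80 * (x + 81) / x := by field_simp; ring
      have e81 : 6480 / x + 81 = 81 * (x + 80) / x := by field_simp; ring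
      unfold rzD
      rw [e80, e81]
      field_simp
      ring
  · -- d = -5
    have hsd' : -5 * x = sd ^ 2 := by rw [← hsd]; push_cast; ring
    refine ⟨-80 * (x + 81) / (x + 80),
      ⟨4 * sd * (x + 81) / y, 4 * sd * s3 / y, x * s3 / y, ?_, ?_, ?_, ?_⟩, ?_⟩
    · exact div_ne_zero (mul_ne_zero (mul_ne_zero (by norm_num) hsd0) hx81) hy
    · rw [div_pow, mul_pow, mul_pow, ← hsd', h]
      field_simp
      ring
    · rw [div_pow, mul_pow, mul_pow, ← hsd', ← hs3, h]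
      field_simp
      ring
    · rw [div_pow, mul_pow, ← hs3, h]
      field_simp
      ring
    · have e80 : -80 * (x + 81) / (x + 80) + 80 = -80 / (x + 80) := by field_simp; ring
      have e81 : -80 * (x + 81) / (x + 80) + 81 = x / (x + 80) := by field_simp; ring
      unfold rzD
      rw [e80, e81]
      field_simp
      ring

theorem rz_no_good : ∀ (n : ℕ) (t : ℚ), rzGood t → t.den = n → False := by
  intro n
  induction n using Nat.strong_induction_on with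
  | _ n ih =>
    intro t ht hn
    obtain ⟨x2, y2, hy2, hcurve, hD⟩ := rz_halve t ht
    obtain ⟨x', hx', hD'⟩ := rz_classify x2 y2 hy2 hcurve
    have hlt := rz_den_lt x' hx'
    rw [hD', hD, hn] at hlt
    exact ih _ hlt x' hx' rfl

end RankZero

/-- The elliptic curve `y^2 = x (x + 80) (x + 81)` has no rational points with `y ≠ 0`. -/
theorem rank_zero (x y : ℚ) (h : y ^ 2 = x * (x + 80) * (x + 81)) : y = 0 := by
  by_contra hy
  obtain ⟨x', hx', -⟩ := RankZero.rz_classify x y hy h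
  exact RankZero.rz_no_good _ x' hx' rfl

end Fermat.Agent.S51
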