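import Mathlib

set_option autoImplicit false

namespace Fermat.Agent.S51

private lemma five_dvd_aux (n m c4 Δ : ℤ) (hn : ¬ (5 : ℤ) ∣ n) (hm : (5 : ℤ) ∣ m)
    (hm' : ¬ (125 : ℤ) ∣ m) (h : n * c4 ^ 3 = m * Δ) : (5 : ℤ) ∣ Δ ∧ (5 : ℤ) ∣ c4 := by
  have h5 : Prime (5 : ℤ) := by norm_num
  have h1 : (5 : ℤ) ∣ n * c4 ^ 3 := by
    rw [h]; exact Dvd.dvd.mul_right hm Δ
  have h2 : (5 : ℤ) ∣ c4 := by
    rcases h5.dvd_or_dvd h1 with h3 | h3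
    · exact absurd h3 hn
    · exact h5.dvd_of_dvd_pow h3
  refine ⟨?_, h2⟩
  by_contra hΔ
  obtain ⟨k, rfl⟩ := h2
  have h3 : (125 : ℤ) ∣ m * Δ := by
    rw [← h]
    exact ⟨n * k ^ 3, by ring⟩
  have hcop : IsCoprime (125 : ℤ) Δ := by
    have : IsCoprime (5 : ℤ) Δ := (Prime.coprime_iff_not_dvd h5).mpr hΔ
    have h125 : (125 : ℤ) = 5 ^ 3 := by norm_num
    rw [h125]
    exact this.pow_left
  exact hm' (hcop.dvd_of_dvd_mul_right h3)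

/-- For the four non-cuspidal rational points of `X₀(15)`, the curve has additive reduction at
`5`: `5 ∣ Δ` and `5 ∣ c₄`. -/
theorem five_dvd_of_t (c4 Δ : ℤ) (t : ℚ)
    (ht : t = -2 ∨ t = -729 / 2 ∨ t = -729 / 32 ∨ t = -32)
    (h : (c4 : ℚ) ^ 3 * t = (t + 27) * (t + 3) ^ 3 * (Δ : ℚ)) :
    (5 : ℤ) ∣ Δ ∧ (5 : ℤ) ∣ c4 := by
  rcases ht with rfl | rfl | rfl | rfl
  · have hq : ((-2 : ℤ) : ℚ) * (c4 : ℚ) ^ 3 = ((25 : ℤ) : ℚ) * (Δ : ℚ) := by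
      push_cast; linear_combination h
    have hz : (-2 : ℤ) * c4 ^ 3 = 25 * Δ := by exact_mod_cast hq
    exact five_dvd_aux (-2) 25 c4 Δ (by norm_num) (by norm_num) (by norm_num) hz
  · have hq : ((-5832 : ℤ) : ℚ) * (c4 : ℚ) ^ 3 = ((675 * 723 ^ 3 : ℤ) : ℚ) * (Δ : ℚ) := by
      push_cast; linear_combination 16 * h
    have hz : (-5832 : ℤ) * c4 ^ 3 = (675 * 723 ^ 3) * Δ := by exact_mod_cast hq
    exact five_dvd_aux (-5832) (675 * 723 ^ 3) c4 Δ (by norm_num) (by norm_num) (by norm_num) hz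
  · have hq : ((729 * 32768 : ℤ) : ℚ) * (c4 : ℚ) ^ 3 = ((135 * 633 ^ 3 : ℤ) : ℚ) * (Δ : ℚ) := by
      push_cast; linear_combination (-1048576 : ℚ) * h
    have hz : (729 * 32768 : ℤ) * c4 ^ 3 = (135 * 633 ^ 3) * Δ := by exact_mod_cast hq
    exact five_dvd_aux (729 * 32768) (135 * 633 ^ 3) c4 Δ (by norm_num) (by norm_num)
      (by norm_num) hz
  · have hq : ((-32 : ℤ) : ℚ) * (c4 : ℚ) ^ 3 = ((121945 : ℤ) : ℚ) * (Δ : ℚ) := by
      push_cast; linear_combination h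
    have hz : (-32 : ℤ) * c4 ^ 3 = 121945 * Δ := by exact_mod_cast hq
    exact five_dvd_aux (-32) 121945 c4 Δ (by norm_num) (by norm_num) (by norm_num) hz

end Fermat.Agent.S51
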