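import Mathlib
import Fermat.Prelude.Def_FLTPrelim_GaloisRep
import Fermat.Agent.S51.Tors5
import Fermat.Agent.S51.GalAct

set_option autoImplicit false

namespace Fermat.Agent.S51

open WeierstrassCurve WeierstrassCurve.Affine

local notation "Qbar" => AlgebraicClosure ℚ

namespace Five

/-- The discriminant of the curve with a `5`-torsion point in terms of the two tangent slopes
`a` (at `P`) and `b` (at `2P`). -/
lemma disc_param {K : Type*} [Field K] [CharZero K] (a b A B : K)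
    (hA : A = -(a * (a + b) * (b ^ 2 - a ^ 2)) - 3 * ((2 * a ^ 2 - b ^ 2) / 3) ^ 2)
    (hB : B = ((a + b) * (b ^ 2 - a ^ 2)) ^ 2 / 4 - ((2 * a ^ 2 - b ^ 2) / 3) ^ 3 -
      A * ((2 * a ^ 2 - b ^ 2) / 3)) :
    16 * (4 * A ^ 3 + 27 * B ^ 2) =
      -(((a ^ 2 - b ^ 2) ^ 2) ^ 2 *
        (4 * (a * b * (a ^ 2 - b ^ 2)) - 11 * (a ^ 2 - b ^ 2) ^ 2)) := by
  subst hB
  subst hA
  ring

/-- The final rational computation: the `X₀(5)` parameter `σ = 4w/D - 11`. -/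
lemma rat_param (A B u v w D : ℚ) (hw : w = A + (u ^ 2 - 3 * v) / 3) (hD : D = u ^ 2 - 4 * v)
    (hD0 : D ≠ 0) (hR1 : w ^ 2 = v * D)
    (hR2 : 16 * (4 * A ^ 3 + 27 * B ^ 2) = -(D ^ 2 * (4 * w - 11 * D)))
    (hdisc : 4 * A ^ 3 + 27 * B ^ 2 ≠ 0) :
    ∃ σ : ℚ, σ ≠ 0 ∧
      6912 * A ^ 3 * σ = (4 * A ^ 3 + 27 * B ^ 2) * (σ ^ 2 + 10 * σ + 5) ^ 3 := by
  have hN : 4 * w - 11 * D ≠ 0 := by
    intro h
    apply hdisc
    have h16 : 16 * (4 * A ^ 3 + 27 * B ^ 2) = 0 := by rw [hR2, h]; ring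
    linarith
  have hA3 : v - 3 * w + D = -3 * A := by rw [hw, hD]; ring
  refine ⟨(4 * w - 11 * D) / D, div_ne_zero hN hD0, ?_⟩
  have h1 : ((4 * w - 11 * D) / D) ^ 2 + 10 * ((4 * w - 11 * D) / D) + 5 = -48 * A / D := by
    field_simp
    linear_combination 16 * hR1 + 16 * D * hA3
  rw [h1]
  field_simp
  linear_combination (6912 * A ^ 3) * hR2

end Five

/-- A curve over `ℚ` with a Galois-stable cyclic subgroup of order `5` (encoded by the rational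
symmetric functions of `px Q`, `px (2Q)`) has `j = (σ² + 10σ + 5)³/σ` for a nonzero rational
`σ`. -/
theorem five_part (E : WeierstrassCurve.Affine ℚ) (hΔ : E.Δ ≠ 0) (s p : ℚ)
    (Q : (E⁄(AlgebraicClosure ℚ)).Point) (hQ : Q ≠ 0) (h5 : 5 • Q = 0)
    (hs : px Q + px (2 • Q) = algebraMap ℚ (AlgebraicClosure ℚ) s)
    (hp : px Q * px (2 • Q) = algebraMap ℚ (AlgebraicClosure ℚ) p) :
    ∃ σ : ℚ, σ ≠ 0 ∧
      6912 * cA E ^ 3 * σ = (4 * cA E ^ 3 + 27 * cB E ^ 2) * (σ ^ 2 + 10 * σ + 5) ^ 3 := by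
  obtain ⟨a, b, hne, hα, hβ, hA, hB⟩ := five_torsion_param hQ h5
  rw [cA_baseChange] at hA hB
  rw [cB_baseChange] at hB
  rw [hα, hβ] at hs hp
  have hinj : Function.Injective (algebraMap ℚ Qbar) := (algebraMap ℚ Qbar).injective
  obtain ⟨u, hu_def⟩ : ∃ u : ℚ, u = 3 * s := ⟨_, rfl⟩
  obtain ⟨v, hv_def⟩ : ∃ v : ℚ, v = p + 2 * s ^ 2 := ⟨_, rfl⟩
  obtain ⟨w, hw_def⟩ : ∃ w : ℚ, w = cA E + (u ^ 2 - 3 * v) / 3 := ⟨_, rfl⟩
  obtain ⟨D, hD_def⟩ : ∃ D : ℚ, D = u ^ 2 - 4 * v := ⟨_, rfl⟩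
  have hu : algebraMap ℚ Qbar u = a ^ 2 + b ^ 2 := by
    rw [hu_def, map_mul, map_ofNat, ← hs]
    ring
  have hv : algebraMap ℚ Qbar v = a ^ 2 * b ^ 2 := by
    rw [hv_def, map_add, map_mul, map_pow, map_ofNat, ← hs, ← hp]
    ring
  have hw : algebraMap ℚ Qbar w = a * b * (a ^ 2 - b ^ 2) := by
    rw [hw_def]
    simp only [map_add, map_sub, map_mul, map_div₀, map_pow, map_ofNat]
    rw [hu, hv, hA]
    ring
  have hD : algebraMap ℚ Qbar D = (a ^ 2 - b ^ 2) ^ 2 := by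
    rw [hD_def]
    simp only [map_sub, map_mul, map_pow, map_ofNat]
    rw [hu, hv]
    ring
  have hD0 : D ≠ 0 := by
    intro h0
    rw [h0, map_zero] at hD
    have h2 : a ^ 2 - b ^ 2 = 0 := (pow_eq_zero_iff (n := 2) (by norm_num)).mp hD.symm
    exact hne (by linear_combination -h2)
  have hR1 : w ^ 2 = v * D := by
    apply hinj
    simp only [map_mul, map_pow]
    rw [hw, hv, hD]
    ring
  have hR2 : 16 * (4 * cA E ^ 3 + 27 * cB E ^ 2) = -(D ^ 2 * (4 * w - 11 * D)) := by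
    apply hinj
    simp only [map_mul, map_add, map_sub, map_neg, map_pow, map_ofNat]
    rw [hw, hD]
    exact Five.disc_param a b _ _ hA hB
  have hdisc : 4 * cA E ^ 3 + 27 * cB E ^ 2 ≠ 0 := by
    intro h
    apply hΔ
    rw [delta_eq, h, mul_zero]
  exact Five.rat_param (cA E) (cB E) u v w D hw_def hD_def hD0 hR1 hR2 hdisc

end Fermat.Agent.S51
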