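import Mathlib
import Fermat.Prelude.Def_FLTPrelim_GaloisRep
import Fermat.Agent.S51.Coords
import Fermat.Agent.S51.Tors3
import Fermat.Agent.S51.GalAct

set_option autoImplicit false

namespace Fermat.Agent.S51

open WeierstrassCurve WeierstrassCurve.Affine

namespace Three

/-- Pure algebra: a rational root of the `3`-division polynomial gives a rational point on
`X₀(3)` above the `j`-invariant, in the normalisation `j = t (t - 24) ^ 3 / (t - 27)`. -/
theorem three_part_rat (A B x : ℚ) (hD : 4 * A ^ 3 + 27 * B ^ 2 ≠ 0)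
    (h : psi3 A B x = 0) :
    ∃ t : ℚ, t ≠ 27 ∧
      6912 * A ^ 3 * (t - 27) = (4 * A ^ 3 + 27 * B ^ 2) * t * (t - 24) ^ 3 := by
  simp only [psi3] at h
  have hf : x ^ 3 + A * x + B ≠ 0 := by
    intro hf
    have h1 : (3 * x ^ 2 + A) ^ 2 = 0 := by
      linear_combination 12 * x * hf - h
    have h2 : 3 * x ^ 2 + A = 0 := by
      exact pow_eq_zero_iff (two_ne_zero) |>.mp h1
    apply hD
    linear_combination (-27 * (x ^ 3 + A * x - B)) * hf + (3 * x ^ 2 + 4 * A) * (3 * x ^ 2 + A) * h2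
  have hrel : 6912 * A ^ 3 * (6 * x * (3 * x ^ 2 + A) / (x ^ 3 + A * x + B) - 27) =
      (4 * A ^ 3 + 27 * B ^ 2) * (6 * x * (3 * x ^ 2 + A) / (x ^ 3 + A * x + B)) *
        (6 * x * (3 * x ^ 2 + A) / (x ^ 3 + A * x + B) - 24) ^ 3 := by
    field_simp
    grind
  refine ⟨6 * x * (3 * x ^ 2 + A) / (x ^ 3 + A * x + B), ?_, hrel⟩
  intro ht
  rw [ht] at hrel
  apply hD
  have : (4 * A ^ 3 + 27 * B ^ 2) * 729 = 0 := by linear_combination -hrel
  exact (mul_eq_zero.mp this).resolve_right (by norm_num)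

end Three

local notation "Qbar" => AlgebraicClosure ℚ

/-- The `3`-part: a nonzero `3`-torsion point with rational short `x`-coordinate yields a
rational point on `X₀(3)` above `j(E)`. -/
theorem three_part (E : WeierstrassCurve.Affine ℚ) (hΔ : E.Δ ≠ 0) (x₀ : ℚ)
    (P : (E⁄(AlgebraicClosure ℚ)).Point) (hP : P ≠ 0) (h3 : 3 • P = 0)
    (hx : px P = algebraMap ℚ (AlgebraicClosure ℚ) x₀) :
    ∃ t : ℚ, t ≠ 27 ∧
      6912 * cA E ^ 3 * (t - 27) = (4 * cA E ^ 3 + 27 * cB E ^ 2) * t * (t - 24) ^ 3 := by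
  have hpsi := (psi3_of_three_nsmul hP h3).2
  rw [cA_baseChange, cB_baseChange, hx] at hpsi
  have hpsi' : psi3 (cA E) (cB E) x₀ = 0 := by
    have : algebraMap ℚ Qbar (psi3 (cA E) (cB E) x₀) = 0 := by
      rw [← hpsi]
      simp only [psi3, map_sub, map_add, map_mul, map_pow, map_ofNat]
    exact (map_eq_zero _).mp this
  have hD : 4 * cA E ^ 3 + 27 * cB E ^ 2 ≠ 0 := by
    intro h0
    apply hΔ
    rw [delta_eq, h0, mul_zero]
  exact Three.three_part_rat (cA E) (cB E) x₀ hD hpsi'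

end Fermat.Agent.S51
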